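import Mathlib

/-!
# Program G, package Asm, leaf LIFT (`gasm_lift`)

Transport of an eigen-character `ψ : H →+ κ` with values in a finite extension `κ` of `𝔽_p` to an
eigenvector `x ∈ κ ⊗ J'` along an injective additive map `Θ` defined on a group `𝒳` of
`𝔽_p`-valued characters containing all the components `lam ∘ ψ` of `ψ`.

`x := ∑ j, b j ⊗ Θ (b.coord j ∘ ψ)` for a `ZMod p`-basis `b` of `κ`.
-/

set_option autoImplicit false

noncomputable section

namespace Fermat.Agent.G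

open scoped TensorProduct

section lift

variable {p : ℕ} [Fact p.Prime] {κ : Type*} [Field κ] [Algebra (ZMod p) κ]
  {H : Type*} [AddCommGroup H] (𝒳 : AddSubgroup (H →+ ZMod p))
  {J' : Type*} [AddCommGroup J'] [Module (ZMod p) J']
  (Θ : 𝒳 →+ J') (ψ : H →+ κ)
  (hcomp : ∀ lam : κ →ₗ[ZMod p] ZMod p, lam.toAddMonoidHom.comp ψ ∈ 𝒳)

/-- the additive map `lam ↦ Θ (lam ∘ ψ)` on the `𝔽_p`-dual of `κ`. -/
def gasmlPhiAdd : (κ →ₗ[ZMod p] ZMod p) →+ J' where
  toFun lam := Θ ⟨lam.toAddMonoidHom.comp ψ, hcomp lam⟩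
  map_zero' := by
    have : (⟨(0 : κ →ₗ[ZMod p] ZMod p).toAddMonoidHom.comp ψ, hcomp 0⟩ : 𝒳) = 0 := by
      apply Subtype.ext
      ext h
      simp
    rw [this, map_zero]
  map_add' := by
    intro l₁ l₂
    have : (⟨(l₁ + l₂).toAddMonoidHom.comp ψ, hcomp (l₁ + l₂)⟩ : 𝒳) =
        ⟨l₁.toAddMonoidHom.comp ψ, hcomp l₁⟩ + ⟨l₂.toAddMonoidHom.comp ψ, hcomp l₂⟩ := by
      apply Subtype.ext
      ext h
      simp
    rw [this, map_add]

/-- the `𝔽_p`-linear map `lam ↦ Θ (lam ∘ ψ)`. -/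
def gasmlPhi : (κ →ₗ[ZMod p] ZMod p) →ₗ[ZMod p] J' :=
  AddMonoidHom.toZModLinearMap p (gasmlPhiAdd 𝒳 Θ ψ hcomp)

theorem gasmlPhi_apply (lam : κ →ₗ[ZMod p] ZMod p) :
    gasmlPhi 𝒳 Θ ψ hcomp lam = Θ ⟨lam.toAddMonoidHom.comp ψ, hcomp lam⟩ := rfl

end lift

section basis

variable {p : ℕ} [Fact p.Prime] {κ : Type*} [Field κ] [Algebra (ZMod p) κ]
  {J' : Type*} [AddCommGroup J'] [Module (ZMod p) J']
  {ι : Type*} [Fintype ι] (b : Module.Basis ι (ZMod p) κ)
  (Φ : (κ →ₗ[ZMod p] ZMod p) →ₗ[ZMod p] J')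

/-- the element `∑ j, b j ⊗ Φ (b.coord j)` of `κ ⊗ J'`. -/
def gasmlElt : κ ⊗[ZMod p] J' := ∑ j, b j ⊗ₜ[ZMod p] Φ (b.coord j)

theorem gasml_coord_elt [DecidableEq ι] (i : ι) :
    TensorProduct.lid (ZMod p) J' ((b.coord i).rTensor J' (gasmlElt b Φ)) = Φ (b.coord i) := by
  unfold gasmlElt
  rw [map_sum, map_sum]
  rw [Finset.sum_eq_single i]
  · simp
  · intro j _ hji
    simp [Module.Basis.coord_apply, Finsupp.single_eq_of_ne hji.symm]
  · intro h
    exact absurd (Finset.mem_univ i) h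

theorem gasml_elt_eq_zero (h : gasmlElt b Φ = 0) (i : ι) : Φ (b.coord i) = 0 := by
  classical
  rw [← gasml_coord_elt b Φ i, h, map_zero, map_zero]

/-- `c • x = ∑ j, b j ⊗ Φ (b.coord j ∘ (c * ·))`. -/
theorem gasml_smul_elt (c : κ) :
    c • gasmlElt b Φ =
      ∑ j, b j ⊗ₜ[ZMod p] Φ ((b.coord j).comp (LinearMap.mulLeft (ZMod p) c)) := by
  classical
  have h1 : ∀ j, (b.coord j).comp (LinearMap.mulLeft (ZMod p) c) =
      ∑ k, (b.coord j (c * b k)) • b.coord k := by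
    intro j
    have := b.sum_dual_apply_smul_coord ((b.coord j).comp (LinearMap.mulLeft (ZMod p) c))
    rw [← this]
    rfl
  unfold gasmlElt
  simp_rw [h1]
  have h2 : ∀ j, b j ⊗ₜ[ZMod p] Φ (∑ k, (b.coord j) (c * b k) • b.coord k) =
      ∑ k, ((b.coord j) (c * b k) • b j) ⊗ₜ[ZMod p] Φ (b.coord k) := by
    intro j
    rw [map_sum, TensorProduct.tmul_sum]
    refine Finset.sum_congr rfl fun k _ => ?_
    rw [map_smul, TensorProduct.tmul_smul, TensorProduct.smul_tmul']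
  simp_rw [h2]
  rw [Finset.sum_comm, Finset.smul_sum]
  refine Finset.sum_congr rfl fun k _ => ?_
  rw [← TensorProduct.sum_tmul, TensorProduct.smul_tmul']
  congr 1
  simp [Module.Basis.coord_apply]

end basis

/-- (LIFT) transport of an eigen-character with values in a finite extension `κ` of `𝔽_p` to
`κ ⊗ J'` along an injective additive map `Θ` defined on a group `𝒳` of `𝔽_p`-valued characters
containing all the components of `ψ`. -/
theorem gasm_lift {p : ℕ} [Fact p.Prime] {κ : Type*} [Field κ] [Algebra (ZMod p) κ] [Finite κ]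
    {H : Type*} [AddCommGroup H] (𝒳 : AddSubgroup (H →+ ZMod p))
    {J' : Type*} [AddCommGroup J'] [Module (ZMod p) J']
    (Θ : 𝒳 →+ J') (hΘ : Function.Injective Θ) (ψ : H →+ κ) (hψ : ψ ≠ 0)
    (hcomp : ∀ lam : κ →ₗ[ZMod p] ZMod p, lam.toAddMonoidHom.comp ψ ∈ 𝒳) :
    ∃ x : κ ⊗[ZMod p] J', x ≠ 0 ∧
      ∀ (τ : H →+ H) (T : J' →ₗ[ZMod p] J') (c : κ),
        (∀ χ χ' : 𝒳, (χ' : H →+ ZMod p) = (χ : H →+ ZMod p).comp τ → Θ χ' = T (Θ χ)) →
          ψ.comp τ = c • ψ → T.baseChange κ x = c • x := by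
  classical
  have : Module.Finite (ZMod p) κ := Module.Finite.of_finite
  set b := Module.finBasis (ZMod p) κ with hb
  set Φ := gasmlPhi 𝒳 Θ ψ hcomp with hΦ
  refine ⟨gasmlElt b Φ, ?_, ?_⟩
  · intro h0
    apply hψ
    ext h
    have h1 : ∀ i, Φ (b.coord i) = 0 := gasml_elt_eq_zero b Φ h0
    have h2 : ∀ i, b.coord i (ψ h) = 0 := by
      intro i
      have h3 := h1 i
      rw [hΦ, gasmlPhi_apply, ← map_zero Θ] at h3
      have h4 := congrArg (fun χ : 𝒳 => (χ : H →+ ZMod p) h) (hΘ h3)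
      simpa using h4
    have h5 : b.repr (ψ h) = 0 := by
      ext i
      simpa [Module.Basis.coord_apply] using h2 i
    simpa using h5
  · intro τ T c hT hc
    rw [gasml_smul_elt]
    unfold gasmlElt
    rw [map_sum]
    refine Finset.sum_congr rfl fun j _ => ?_
    rw [LinearMap.baseChange_tmul]
    congr 1
    rw [hΦ, gasmlPhi_apply, gasmlPhi_apply]
    symm
    apply hT
    ext h
    have h6 := congrArg (fun f : H →+ κ => f h) hc
    simp only [AddMonoidHom.comp_apply, AddMonoidHom.smul_apply, smul_eq_mul] at h6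
    simp [h6]

end Fermat.Agent.G
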