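/-
Program G, package Asm, leaf RED (row 497, helper7): reduction mod `p` of an eigen-character.
Pure algebra (`import Mathlib` only).

`H` finitely generated abelian group, `π : ℤ^m ↠ H`.  A homomorphism `H → A` is a vector `x ∈ A^m`
killed by the integer relations; "kills `S`" and "`ψ ∘ τ_i = a_i ψ`" are further linear forms in
`x` with coefficients in `ℤ̄`.  A family `V ⊆ R^m` of linear forms which has a common nonzero zero
over a field `K ⊇ R` has one over every field `L` with `R → L` (`gasmr_common_zero`: otherwise `m` of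
the forms have a determinant which is nonzero in `L`, hence in `R`, hence in `K`).  Applied to
`R = ℤ̄ → ℂ` and `ℤ̄ → ` (algebraic closure of `𝔽_p` in `k`); the coordinates of the solution
generate a finite field `κ`, and `c_i = ψ'(τ_i h₀)/ψ'(h₀) ∈ κ`.
-/
import Mathlib

set_option autoImplicit false

noncomputable section

namespace Fermat.Agent.G

open Module

/-- a family `V` of linear forms with coefficients in `R` which has a nonzero common zero over a
field `K` into which `R` embeds has a nonzero common zero over any field receiving `R`. -/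
theorem gasmr_common_zero {R K L : Type*} [CommRing R] [Field K] [Field L] (θ₁ : R →+* K)
    (hθ₁ : Function.Injective θ₁) (θ₂ : R →+* L) {m : ℕ} (V : Set (Fin m → R))
    (x : Fin m → K) (hx : x ≠ 0) (hV : ∀ v ∈ V, ∑ j, θ₁ (v j) * x j = 0) :
    ∃ y : Fin m → L, y ≠ 0 ∧ ∀ v ∈ V, ∑ j, θ₂ (v j) * y j = 0 := by
  classical
  set T : Set (Fin m → L) := (fun v : Fin m → R => fun j => θ₂ (v j)) '' V with hT
  by_cases hW : Submodule.span L T = ⊤
  · exfalso
    obtain ⟨b, hbT, hbspan, hbli⟩ := exists_linearIndependent L T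
    have hbtop : ⊤ ≤ Submodule.span L (Set.range ((↑) : b → Fin m → L)) := by
      rw [Subtype.range_coe, hbspan, hW]
    let B : Basis b L (Fin m → L) := Basis.mk hbli hbtop
    let e : b ≃ Fin m := B.indexEquiv (Pi.basisFun L (Fin m))
    have hex : ∀ i : Fin m, ∃ v ∈ V, (fun j => θ₂ (v j)) = ((e.symm i : b) : Fin m → L) :=
      fun i => hbT (e.symm i).2
    choose v hvV hv using hex
    let M : Matrix (Fin m) (Fin m) R := Matrix.of v
    have hrow : (fun i => (M.map θ₂).row i) = fun i => B (e.symm i) := by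
      funext i
      rw [Basis.mk_apply]
      rw [← hv i]
      rfl
    have hli : LinearIndependent L (fun i => (M.map θ₂).row i) := by
      rw [hrow]
      exact B.linearIndependent.comp _ e.symm.injective
    have hdet2 : (M.map θ₂).det ≠ 0 := by
      have h1 := Matrix.linearIndependent_rows_iff_isUnit.mp hli
      exact ((Matrix.isUnit_iff_isUnit_det _).mp h1).ne_zero
    have hdet : M.det ≠ 0 := by
      intro h
      apply hdet2
      rw [← RingHom.mapMatrix_apply, ← RingHom.map_det, h, map_zero]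
    have hdet1 : (M.map θ₁).det ≠ 0 := by
      rw [← RingHom.mapMatrix_apply, ← RingHom.map_det]
      exact (map_ne_zero_iff θ₁ hθ₁).mpr hdet
    have hmv : (M.map θ₁).mulVec x = 0 := by
      funext i
      simp only [Matrix.mulVec, dotProduct, Matrix.map_apply, Pi.zero_apply]
      exact hV (v i) (hvV i)
    exact hx (Matrix.eq_zero_of_mulVec_eq_zero hdet1 hmv)
  · obtain ⟨f, hf0, hfW⟩ :=
      Submodule.exists_le_ker_of_lt_top (Submodule.span L T) (lt_top_iff_ne_top.mpr hW)
    have hfsum : ∀ w : Fin m → L, f w = ∑ j, w j * f (fun j' => if j = j' then 1 else 0) := by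
      intro w
      rw [LinearMap.pi_apply_eq_sum_univ f w]
      simp only [smul_eq_mul]
    refine ⟨fun j => f (fun j' => if j = j' then 1 else 0), ?_, ?_⟩
    · intro hy
      apply hf0
      refine LinearMap.ext fun w => ?_
      rw [hfsum w]
      simp only [LinearMap.zero_apply]
      refine Finset.sum_eq_zero fun j _ => ?_
      rw [show f (fun j' => if j = j' then 1 else 0) = 0 from congrFun hy j, mul_zero]
    · intro v hv
      have h0 : f (fun j => θ₂ (v j)) = 0 := hfW (Submodule.subset_span ⟨v, hv, rfl⟩)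
      rw [hfsum] at h0
      exact h0

/-- `φ a` is algebraic over `𝔽_p` for `a ∈ ℤ̄`. -/
theorem gasmr_isIntegral_phi {p : ℕ} [Fact p.Prime] {k : Type*} [Field k] [Algebra (ZMod p) k]
    (φ : integralClosure ℤ ℂ →+* k) (a : integralClosure ℤ ℂ) : IsIntegral (ZMod p) (φ a) := by
  have ha : IsIntegral ℤ a := Algebra.IsIntegral.isIntegral a
  exact ha.map_of_comp_eq (Int.castRingHom (ZMod p)) φ (RingHom.ext_int _ _)

/-- (RED) reduction mod `p` of an eigen-character. -/
theorem gasm_reduce {H : Type*} [AddCommGroup H] (hH : AddGroup.FG H) {I : Type*}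
    (τ : I → H →+ H) (S : Set H) (a : I → integralClosure ℤ ℂ) (ψ : H →+ ℂ) (hψ : ψ ≠ 0)
    (hS : ∀ s ∈ S, ψ s = 0) (heig : ∀ i, ψ.comp (τ i) = (a i : ℂ) • ψ)
    {p : ℕ} [Fact p.Prime] {k : Type} [Field k] [CharP k p] (φ : integralClosure ℤ ℂ →+* k) :
    ∃ (κ : Type) (_ : Field κ) (_ : Finite κ) (_ : Algebra (ZMod p) κ) (ι : κ →+* k) (c : I → κ)
      (ψ' : H →+ κ), ψ' ≠ 0 ∧ (∀ s ∈ S, ψ' s = 0) ∧ (∀ i, ι (c i) = φ (a i)) ∧
        ∀ i, ψ'.comp (τ i) = c i • ψ' := by
  classical
  let _ : Algebra (ZMod p) k := ZMod.algebra k p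
  have : Module.Finite ℤ H := Module.Finite.iff_addGroup_fg.mpr hH
  obtain ⟨m, π, hπ⟩ := Module.Finite.exists_fin' ℤ H
  -- the generators
  set g : Fin m → H := fun j => π (fun j' => if j = j' then 1 else 0) with hg
  have hπsum : ∀ n : Fin m → ℤ, π n = ∑ j, n j • g j :=
    fun n => LinearMap.pi_apply_eq_sum_univ π n
  -- the linear forms
  let V : Set (Fin m → integralClosure ℤ ℂ) :=
    {v | (∃ n : Fin m → ℤ, π n = 0 ∧ v = fun j => ((n j : ℤ) : integralClosure ℤ ℂ)) ∨
      (∃ n : Fin m → ℤ, π n ∈ S ∧ v = fun j => ((n j : ℤ) : integralClosure ℤ ℂ)) ∨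
      (∃ (i : I) (n n' : Fin m → ℤ), π n' = τ i (π n) ∧
        v = fun j => ((n' j : ℤ) : integralClosure ℤ ℂ) - a i * ((n j : ℤ) : integralClosure ℤ ℂ))}
  -- the solution over `ℂ`
  let x : Fin m → ℂ := fun j => ψ (g j)
  have hψπ : ∀ n : Fin m → ℤ, ψ (π n) = ∑ j, ((n j : ℤ) : ℂ) * x j := by
    intro n
    rw [hπsum, map_sum]
    refine Finset.sum_congr rfl fun j _ => ?_
    rw [map_zsmul, zsmul_eq_mul]
  have hx : x ≠ 0 := by
    intro hx0
    apply hψ
    ext h
    obtain ⟨n, rfl⟩ := hπ h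
    rw [hψπ]
    simp [hx0]
  have hV : ∀ v ∈ V, ∑ j, (algebraMap (integralClosure ℤ ℂ) ℂ) (v j) * x j = 0 := by
    rintro v (⟨n, hn, rfl⟩ | ⟨n, hn, rfl⟩ | ⟨i, n, n', hn, rfl⟩)
    · simp only [map_intCast]
      rw [← hψπ, hn, map_zero]
    · simp only [map_intCast]
      rw [← hψπ]
      exact hS _ hn
    · simp only [map_sub, map_mul, map_intCast, sub_mul, Finset.sum_sub_distrib, mul_assoc,
        ← Finset.mul_sum]
      rw [← hψπ, ← hψπ, hn]
      have h1 := DFunLike.congr_fun (heig i) (π n)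
      rw [AddMonoidHom.comp_apply, AddMonoidHom.smul_apply, smul_eq_mul] at h1
      rw [h1]
      exact sub_self _
  -- the algebraic closure of `𝔽_p` in `k`
  let k₀ : IntermediateField (ZMod p) k := algebraicClosure (ZMod p) k
  have hφmem : ∀ r : integralClosure ℤ ℂ, φ r ∈ k₀ := fun r =>
    mem_algebraicClosure_iff'.mpr (gasmr_isIntegral_phi φ r)
  let φ₀ : integralClosure ℤ ℂ →+* k₀ := φ.codRestrict k₀.toSubalgebra.toSubring hφmem
  obtain ⟨y, hy0, hy⟩ := gasmr_common_zero (algebraMap (integralClosure ℤ ℂ) ℂ)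
    Subtype.val_injective φ₀ V x hx hV
  -- the finite field
  let κ : IntermediateField (ZMod p) k :=
    IntermediateField.adjoin (ZMod p) (Set.range fun j => ((y j : k₀) : k))
  have : FiniteDimensional (ZMod p) κ := by
    apply IntermediateField.finiteDimensional_adjoin
    rintro _ ⟨j, rfl⟩
    exact mem_algebraicClosure_iff'.mp (y j).2
  have : Finite κ := Module.finite_of_finite (ZMod p)
  let yk : Fin m → κ := fun j =>
    ⟨((y j : k₀) : k), IntermediateField.subset_adjoin _ _ ⟨j, rfl⟩⟩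
  -- the pairing in `k`
  have hyk : ∀ v ∈ V, ∑ j, φ (v j) * ((yk j : κ) : k) = 0 := by
    intro v hv
    have h1 := congrArg (fun z : k₀ => (z : k)) (hy v hv)
    simp only [ZeroMemClass.coe_zero] at h1
    rw [← h1]
    rw [AddSubmonoidClass.coe_finsetSum]
    rfl
  let G : (Fin m → ℤ) →+ κ := (Fintype.linearCombination ℤ yk).toAddMonoidHom
  have hG : ∀ n : Fin m → ℤ, ((G n : κ) : k) = ∑ j, ((n j : ℤ) : k) * ((yk j : κ) : k) := by
    intro n
    show (((Fintype.linearCombination ℤ yk) n : κ) : k) = _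
    rw [Fintype.linearCombination_apply, AddSubmonoidClass.coe_finsetSum]
    refine Finset.sum_congr rfl fun j _ => ?_
    rw [zsmul_eq_mul]
    push_cast
    rfl
  have hker : π.toAddMonoidHom.ker ≤ G.ker := by
    intro n hn
    rw [AddMonoidHom.mem_ker] at hn ⊢
    apply Subtype.val_injective
    rw [hG, ZeroMemClass.coe_zero]
    have := hyk _ (Or.inl ⟨n, hn, rfl⟩)
    simpa only [map_intCast] using this
  let ψ' : H →+ κ := π.toAddMonoidHom.liftOfSurjective hπ ⟨G, hker⟩
  have hψ'π : ∀ n : Fin m → ℤ, ψ' (π n) = G n := fun n =>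
    AddMonoidHom.liftOfRightInverse_comp_apply _ _ _ ⟨G, hker⟩ n
  -- `ψ' ≠ 0`
  have hψ'0 : ψ' ≠ 0 := by
    intro h0
    apply hy0
    funext j
    have h1 : ψ' (g j) = 0 := by rw [h0]; rfl
    rw [hg] at h1
    simp only at h1
    rw [hψ'π] at h1
    have h2 := congrArg (fun z : κ => (z : k)) h1
    simp only [hG, ZeroMemClass.coe_zero] at h2
    rw [Finset.sum_eq_single j] at h2
    · simp only [if_true, Int.cast_one, one_mul] at h2
      apply Subtype.val_injective
      exact h2
    · intro j' _ hj'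
      rw [if_neg (Ne.symm hj')]
      simp
    · intro hj
      exact absurd (Finset.mem_univ j) hj
  -- kills `S`
  have hψ'S : ∀ s ∈ S, ψ' s = 0 := by
    intro s hs
    obtain ⟨n, rfl⟩ := hπ s
    rw [hψ'π]
    apply Subtype.val_injective
    rw [hG, ZeroMemClass.coe_zero]
    have := hyk _ (Or.inr (Or.inl ⟨n, hs, rfl⟩))
    simpa only [map_intCast] using this
  -- eigen-relation in `k`
  have hψ'eig : ∀ (i : I) (h : H), ((ψ' (τ i h) : κ) : k) = φ (a i) * ((ψ' h : κ) : k) := by
    intro i h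
    obtain ⟨n, rfl⟩ := hπ h
    obtain ⟨n', hn'⟩ := hπ (τ i (π n))
    rw [← hn', hψ'π, hψ'π, hG, hG]
    have := hyk _ (Or.inr (Or.inr ⟨i, n, n', hn', rfl⟩))
    simp only [map_sub, map_mul, map_intCast, sub_mul, Finset.sum_sub_distrib, mul_assoc,
      ← Finset.mul_sum] at this
    exact sub_eq_zero.mp this
  -- a point where `ψ'` does not vanish
  obtain ⟨h₀, hh₀⟩ : ∃ h₀, ψ' h₀ ≠ 0 := by
    by_contra hcon
    exact hψ'0 (AddMonoidHom.ext fun h => not_not.mp fun hne => hcon ⟨h, hne⟩)
  have hh₀k : ((ψ' h₀ : κ) : k) ≠ 0 := fun h => hh₀ (Subtype.val_injective h)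
  let c : I → κ := fun i => ψ' (τ i h₀) / ψ' h₀
  have hc : ∀ i, ((c i : κ) : k) = φ (a i) := by
    intro i
    show ((ψ' (τ i h₀) / ψ' h₀ : κ) : k) = φ (a i)
    rw [IntermediateField.coe_div, hψ'eig, mul_div_assoc, div_self hh₀k, mul_one]
  refine ⟨κ, inferInstance, inferInstance, inferInstance, algebraMap κ k, c, ψ', hψ'0, hψ'S, hc, ?_⟩
  intro i
  refine AddMonoidHom.ext fun h => ?_
  rw [AddMonoidHom.comp_apply, AddMonoidHom.smul_apply, smul_eq_mul]
  apply Subtype.val_injective
  rw [hψ'eig, IntermediateField.coe_mul, hc]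

end Fermat.Agent.G
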