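import Mathlib

/-!
# Program G, package Asm : the cyclic subrepresentation generated by a vector (pure algebra)

`gasmSpan ρ x` : the `κ`-span of the orbit of `x` under a representation `ρ : G →* End_κ M`;
it is stable, finite dimensional when the orbit is finite, and carries the restricted representation
`gasmSpanRep ρ x`.
-/

set_option autoImplicit false

noncomputable section

namespace Fermat.Agent.G

variable {κ : Type*} [Field κ] {M : Type*} [AddCommGroup M] [Module κ M] {G : Type*} [Group G]

/-- the span of the orbit of `x`. -/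
def gasmSpan (ρ : G →* Module.End κ M) (x : M) : Submodule κ M :=
  Submodule.span κ (Set.range fun g : G => ρ g x)

theorem gasm_mem_span_self (ρ : G →* Module.End κ M) (x : M) : x ∈ gasmSpan ρ x := by
  apply Submodule.subset_span
  exact ⟨1, by show ρ 1 x = x; rw [map_one]; rfl⟩

theorem gasm_orbit_mem_span (ρ : G →* Module.End κ M) (x : M) (g : G) :
    ρ g x ∈ gasmSpan ρ x :=
  Submodule.subset_span ⟨g, rfl⟩

theorem gasm_span_stable (ρ : G →* Module.End κ M) (x : M) (g : G) :
    ∀ w ∈ gasmSpan ρ x, ρ g w ∈ gasmSpan ρ x := by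
  intro w hw
  induction hw using Submodule.span_induction with
  | mem y hy =>
    obtain ⟨h, rfl⟩ := hy
    have : ρ g (ρ h x) = ρ (g * h) x := by rw [map_mul]; rfl
    rw [this]
    exact gasm_orbit_mem_span ρ x (g * h)
  | zero => rw [map_zero]; exact Submodule.zero_mem _
  | add y z _ _ hy hz => rw [map_add]; exact Submodule.add_mem _ hy hz
  | smul c y _ hy => rw [map_smul]; exact Submodule.smul_mem _ c hy

/-- the restricted representation on the span of the orbit. -/
def gasmSpanRep (ρ : G →* Module.End κ M) (x : M) : G →* Module.End κ (gasmSpan ρ x) where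
  toFun g := (ρ g).restrict (gasm_span_stable ρ x g)
  map_one' := by
    ext w
    simp
  map_mul' g h := by
    ext w
    simp [map_mul]

@[simp]
theorem gasmSpanRep_coe (ρ : G →* Module.End κ M) (x : M) (g : G) (w : gasmSpan ρ x) :
    ((gasmSpanRep ρ x g w : gasmSpan ρ x) : M) = ρ g (w : M) := rfl

theorem gasm_span_nontrivial (ρ : G →* Module.End κ M) (x : M) (hx : x ≠ 0) :
    Nontrivial (gasmSpan ρ x) :=
  ⟨⟨⟨x, gasm_mem_span_self ρ x⟩, 0, fun h => hx (congrArg Subtype.val h)⟩⟩

theorem gasm_span_finite (ρ : G →* Module.End κ M) (x : M)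
    (hfin : (Set.range fun g : G => ρ g x).Finite) : Module.Finite κ (gasmSpan ρ x) :=
  Module.Finite.span_of_finite κ hfin

/-- an element acting trivially on the orbit acts trivially on the span. -/
theorem gasmSpanRep_eq_one (ρ : G →* Module.End κ M) (x : M) (σ : G)
    (h : ∀ g : G, ρ σ (ρ g x) = ρ g x) : gasmSpanRep ρ x σ = 1 := by
  ext ⟨w, hw⟩
  rw [gasmSpanRep_coe]
  show ρ σ w = w
  induction hw using Submodule.span_induction with
  | mem y hy =>
    obtain ⟨g, rfl⟩ := hy
    exact h g
  | zero => rw [map_zero]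
  | add y z _ _ hy hz => rw [map_add, hy, hz]
  | smul c y _ hy => rw [map_smul, hy]

/-- an endomorphism commuting with the action and having `x` as an eigenvector acts as the
scalar on the span. -/
theorem gasm_span_eigen (ρ : G →* Module.End κ M) (x : M) (T : Module.End κ M) (c : κ)
    (hcomm : ∀ g : G, ∀ y : M, T (ρ g y) = ρ g (T y)) (hx : T x = c • x) :
    ∀ w ∈ gasmSpan ρ x, T w = c • w := by
  intro w hw
  induction hw using Submodule.span_induction with
  | mem y hy =>
    obtain ⟨g, rfl⟩ := hy
    show T (ρ g x) = c • ρ g x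
    rw [hcomm, hx, map_smul]
  | zero => rw [map_zero, smul_zero]
  | add y z _ _ hy hz => rw [map_add, hy, hz, smul_add]
  | smul d y _ hy => rw [map_smul, hy, smul_comm]

/-- a relation `A² - T A + d = 0` on `M` restricts to `A² - c A + d = 0` on the span. -/
theorem gasmSpanRep_quadratic (ρ : G →* Module.End κ M) (x : M) (T : Module.End κ M) (c d : κ)
    (hT : ∀ w ∈ gasmSpan ρ x, T w = c • w) (σ : G)
    (hrel : ∀ y : M, ρ σ (ρ σ y) - T (ρ σ y) + d • y = 0) :
    gasmSpanRep ρ x σ * gasmSpanRep ρ x σ - c • gasmSpanRep ρ x σ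
      + d • (1 : Module.End κ (gasmSpan ρ x)) = 0 := by
  ext ⟨w, hw⟩
  simp only [LinearMap.add_apply, LinearMap.sub_apply, Module.End.mul_apply, LinearMap.smul_apply,
    Module.End.one_apply, LinearMap.zero_apply, Submodule.coe_add, Submodule.coe_sub,
    Submodule.coe_smul, gasmSpanRep_coe, Submodule.coe_zero]
  rw [← hT _ (gasm_span_stable ρ x σ w hw)]
  exact hrel w

end Fermat.Agent.G
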