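import Mathlib
import Fermat.Prelude.Def_ModularCurve_HeckeModule
import Fermat.Prelude.Def_GaloisRep_Residual
import Fermat.Agent.S16.LB.HeckeDec

/-!
# Program G, package Asm (assembly of S29 / S42): definitions

* `GasmPE χ` : the additive character `χ` of `Γ₀(N)^ab` kills every parabolic and every elliptic
  class (`trace² ≤ 4`).  For torsion-free targets this is the Prelude notion `IsParabolicHom`.
* `gasmPEHoms N A` : the group of such characters with values in `A`.
* `gasmTr N ℓ hℓN` : the Hecke operator `T_ℓ` on `Γ₀(N)^ab` (helper1's transfer endomorphism of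
  `S16/LB/HeckeDec.lean`), acting on characters by precomposition.
* `gasmJp N p` : `J₀(N)(ℚ̄)[p]` as a `ZMod p`-module (Prelude `Pic0.torsion`).
-/

set_option autoImplicit false

noncomputable section

namespace Fermat.Agent.G

open CongruenceSubgroup ModularCurve AlgebraicCurve Fermat.Agent.S16LB
open scoped MatrixGroups

/-- the absolute Galois group of `ℚ` -/
abbrev GasmGQ : Type := AlgebraicClosure ℚ ≃ₐ[ℚ] AlgebraicClosure ℚ

/-- `χ` kills the classes of all parabolic and elliptic elements of `Γ₀(N)`. -/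
def GasmPE {N : ℕ} {A : Type*} [AddCommGroup A] (χ : s16lbAb N →+ A) : Prop :=
  ∀ γ : Gamma0 N, (((γ : SL(2, ℤ)) : Matrix (Fin 2) (Fin 2) ℤ).trace) ^ 2 ≤ 4 →
    χ (s16lbCls N (Additive.ofMul γ)) = 0

/-- the group of characters of `Γ₀(N)^ab` killing parabolic and elliptic classes. -/
def gasmPEHoms (N : ℕ) (A : Type*) [AddCommGroup A] : AddSubgroup (s16lbAb N →+ A) where
  carrier := {χ | GasmPE χ}
  zero_mem' := fun _ _ => rfl
  add_mem' := by
    intro χ ψ hχ hψ γ hγ
    rw [AddMonoidHom.add_apply, hχ γ hγ, hψ γ hγ, add_zero]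
  neg_mem' := by
    intro χ hχ γ hγ
    rw [AddMonoidHom.neg_apply, hχ γ hγ, neg_zero]

theorem mem_gasmPEHoms {N : ℕ} {A : Type*} [AddCommGroup A] {χ : s16lbAb N →+ A} :
    χ ∈ gasmPEHoms N A ↔ GasmPE χ := Iff.rfl

/-- the Hecke operator `T_ℓ`, `ℓ ∤ N`, on `Γ₀(N)^ab`. -/
def gasmTr (N ℓ : ℕ) [Fact ℓ.Prime] (hℓN : ¬ ℓ ∣ N) : s16lbAb N →+ s16lbAb N :=
  (s16lbDataT N ℓ hℓN).trEnd

/-- `J₀(N)(ℚ̄)[p]`. -/
abbrev gasmJp (N p : ℕ) : AddSubgroup (JZero N) :=
  Pic0.torsion (AlgebraicClosure ℚ) (modularFunctionFieldBar N) p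

end Fermat.Agent.G
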