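import Mathlib
import Fermat.Agent.G.Asm.Defs

/-!
# Program G, package Asm, leaf (HG): the Galois action on `J₀(N)(ℚ̄)` commutes with `T_ℓ`

General part (no modular curves): for a tower `F ⊆ F'` of function fields over `K` and semilinear
automorphisms `g` of `F`, `g'` of `F'` which are intertwined by the inclusion, restriction of
places, ramification indices and inertia degrees are compatible with `g`, `g'`; hence so are
`pullbackAlong`, `pushforwardAlong`, `Divisor.correspondence` and `Pic0.correspondence`.
Modular part: `arithmeticGalois` of levels `N` and `N ℓ` are intertwined by both degeneracy maps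
`heckeAlphaBar` (inclusion) and `heckeBetaBar` (`q ↦ q^ℓ`).
-/

set_option autoImplicit false
set_option linter.unusedSectionVars false

noncomputable section

namespace Fermat.Agent.G

open CongruenceSubgroup ModularCurve AlgebraicCurve Fermat.Agent.S16LB Polynomial
open scoped MatrixGroups TensorProduct Pointwise

section General

variable {K F F' : Type*} [Field K] [Field F] [Field F'] [Algebra K F] [Algebra K F']
  [Algebra F F'] [IsScalarTower K F F'] [Algebra.IsIntegral F F']
variable {g : SemilinearAut K F} {g' : SemilinearAut K F'}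

theorem gasmhg_inv (h : ∀ x : F, g' • algebraMap F F' x = algebraMap F F' (g • x)) (x : F) :
    g'⁻¹ • algebraMap F F' x = algebraMap F F' (g⁻¹ • x) := by
  have hx := h (g⁻¹ • x)
  rw [smul_inv_smul] at hx
  rw [← hx, inv_smul_smul]

theorem gasmhg_restrict_smul (h : ∀ x : F, g' • algebraMap F F' x = algebraMap F F' (g • x))
    (w : Place K F') : (g' • w).restrict F = g • (w.restrict F) := by
  apply Place.ext
  ext x
  rw [Place.restrict_toValuationSubring, SemilinearAut.smul_toValuationSubring,
    SemilinearAut.smul_toValuationSubring, Place.restrict_toValuationSubring,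
    ValuationSubring.mem_comap, ValuationSubring.mem_pointwise_smul_iff_inv_smul_mem,
    ValuationSubring.mem_pointwise_smul_iff_inv_smul_mem, ValuationSubring.mem_comap,
    gasmhg_inv h]

theorem gasmhg_ramificationIndex_smul
    (h : ∀ x : F, g' • algebraMap F F' x = algebraMap F F' (g • x)) (w : Place K F') :
    (g' • w).ramificationIndex F = w.ramificationIndex F := by
  unfold Place.ramificationIndex
  congr 1
  ext n
  simp only [Set.mem_ofPred_eq]
  refine and_congr_right fun _ => ⟨?_, ?_⟩
  · rintro ⟨f, hf, hn⟩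
    refine ⟨g⁻¹ • f, by simpa using hf, ?_⟩
    rw [← hn, ← SemilinearAut.ord_smul g' w, h, smul_inv_smul]
  · rintro ⟨f, hf, hn⟩
    refine ⟨g • f, by simpa using hf, ?_⟩
    rw [← hn, ← h, SemilinearAut.ord_smul]

/-- the ring isomorphism between the valuation rings of `w|_F` and `(g' w)|_F` induced by `g`. -/
def gasmhgResEquiv (h : ∀ x : F, g' • algebraMap F F' x = algebraMap F F' (g • x))
    (w : Place K F') :
    (w.restrict F).toValuationSubring ≃+* ((g' • w).restrict F).toValuationSubring where
  toFun x := ⟨g • (x : F), by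
    rw [Place.mem_restrict_iff, ← h]
    exact ValuationSubring.smul_mem_pointwise_smul g' _ _ ((w.mem_restrict_iff).mp x.2)⟩
  invFun y := ⟨g⁻¹ • (y : F), by
    rw [Place.mem_restrict_iff, ← gasmhg_inv h]
    exact (ValuationSubring.mem_pointwise_smul_iff_inv_smul_mem).mp
      (((g' • w).mem_restrict_iff).mp y.2)⟩
  left_inv x := by ext; simp
  right_inv y := by ext; simp
  map_mul' x y := Subtype.ext (smul_mul' g (x : F) (y : F))
  map_add' x y := Subtype.ext (smul_add g (x : F) (y : F))

theorem gasmhg_inertiaDeg_smul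
    (h : ∀ x : F, g' • algebraMap F F' x = algebraMap F F' (g • x)) (w : Place K F') :
    (g' • w).inertiaDeg F = w.inertiaDeg F := by
  unfold Place.inertiaDeg
  symm
  refine Algebra.finrank_eq_of_equiv_equiv
    (IsLocalRing.ResidueField.mapEquiv (gasmhgResEquiv h w))
    (SemilinearAut.smulResidueRingEquiv g' w) ?_
  ext r
  obtain ⟨a, rfl⟩ := IsLocalRing.residue_surjective r
  simp only [RingHom.comp_apply, RingEquiv.toRingHom_eq_coe, RingEquiv.coe_toRingHom]
  rw [Place.algebraMap_residueField_eq, Place.algebraMap_residueField_eq,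
    IsLocalRing.ResidueField.mapEquiv_apply, IsLocalRing.ResidueField.map_residue,
    Place.restrictResidueMap_residue, Place.restrictResidueMap_residue]
  show _ = IsLocalRing.ResidueField.mapEquiv _ (IsLocalRing.residue _ _)
  rw [IsLocalRing.ResidueField.mapEquiv_apply, IsLocalRing.ResidueField.map_residue]
  refine congrArg _ (Subtype.ext ?_)
  show algebraMap F F' (g • (a : F)) = g' • algebraMap F F' (a : F)
  rw [h]

end General

section Along

variable {K F F' : Type*} [Field K] [Field F] [Field F'] [Algebra K F] [Algebra K F']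
variable {g : SemilinearAut K F} {g' : SemilinearAut K F'}

theorem gasmhg_restrictAlong_smul (φ : F →ₐ[K] F') (hφ : φ.toRingHom.IsIntegral)
    (h : SemilinearAut.IntertwinesAlong φ.toRingHom g g') (w : Place K F') :
    (g' • w).restrictAlong φ hφ = g • (w.restrictAlong φ hφ) := by
  let _ := algebraAlong φ
  have := isScalarTower_along φ
  have := isIntegral_along φ hφ
  exact gasmhg_restrict_smul (F := F) h w

theorem gasmhg_ramificationIndexAlong_smul (φ : F →ₐ[K] F') (hφ : φ.toRingHom.IsIntegral)
    (h : SemilinearAut.IntertwinesAlong φ.toRingHom g g') (w : Place K F') :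
    (g' • w).ramificationIndexAlong φ = w.ramificationIndexAlong φ := by
  let _ := algebraAlong φ
  have := isScalarTower_along φ
  have := isIntegral_along φ hφ
  exact gasmhg_ramificationIndex_smul (F := F) h w

theorem gasmhg_inertiaDegAlong_smul (φ : F →ₐ[K] F') (hφ : φ.toRingHom.IsIntegral)
    (h : SemilinearAut.IntertwinesAlong φ.toRingHom g g') (w : Place K F') :
    (g' • w).inertiaDegAlong φ hφ = w.inertiaDegAlong φ hφ := by
  let _ := algebraAlong φ
  have := isScalarTower_along φ
  have := isIntegral_along φ hφ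
  exact gasmhg_inertiaDeg_smul (F := F) h w

theorem gasmhg_pullbackAlong_smul [HasPrincipalDivisors K F'] (φ : F →ₐ[K] F')
    (hφ : φ.toRingHom.IsIntegral) (h : SemilinearAut.IntertwinesAlong φ.toRingHom g g')
    (D : Divisor K F) :
    Divisor.pullbackAlong φ hφ (g • D) = g' • Divisor.pullbackAlong φ hφ D := by
  refine Finsupp.ext fun w => ?_
  rw [Divisor.pullbackAlong_apply, SemilinearAut.divisor_smul_apply,
    SemilinearAut.divisor_smul_apply, Divisor.pullbackAlong_apply,
    gasmhg_restrictAlong_smul φ hφ h.inv, gasmhg_ramificationIndexAlong_smul φ hφ h.inv]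

theorem gasmhg_pushforwardAlong_smul (φ : F →ₐ[K] F')
    (hφ : φ.toRingHom.IsIntegral) (h : SemilinearAut.IntertwinesAlong φ.toRingHom g g')
    (D : Divisor K F') :
    Divisor.pushforwardAlong φ hφ (g' • D) = g • Divisor.pushforwardAlong φ hφ D := by
  induction D using Finsupp.induction with
  | zero => rw [smul_zero, map_zero, smul_zero]
  | single_add w n D _ _ ih =>
    rw [smul_add, map_add, map_add, smul_add, ih, SemilinearAut.smul_single,
      Divisor.pushforwardAlong_single, Divisor.pushforwardAlong_single,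
      SemilinearAut.smul_single, gasmhg_restrictAlong_smul φ hφ h,
      gasmhg_inertiaDegAlong_smul φ hφ h]

theorem gasmhg_correspondence_smul [HasPrincipalDivisors K F'] (φ ψ : F →ₐ[K] F')
    (hφ : φ.toRingHom.IsIntegral) (hψ : ψ.toRingHom.IsIntegral)
    (h₁ : SemilinearAut.IntertwinesAlong φ.toRingHom g g')
    (h₂ : SemilinearAut.IntertwinesAlong ψ.toRingHom g g') (D : Divisor K F) :
    Divisor.correspondence φ ψ hφ hψ (g • D) = g • Divisor.correspondence φ ψ hφ hψ D := by
  rw [Divisor.correspondence_apply, Divisor.correspondence_apply,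
    gasmhg_pullbackAlong_smul φ hφ h₁, gasmhg_pushforwardAlong_smul ψ hψ h₂]

theorem gasmhg_pic0_correspondence_smul [HasPrincipalDivisors K F'] (φ ψ : F →ₐ[K] F')
    (hφ : φ.toRingHom.IsIntegral) (hψ : ψ.toRingHom.IsIntegral)
    (hFI : FundamentalIdentityAlong K φ hφ) (hfin : FiniteAlong K ψ)
    (hN : NormFormulaAlong K ψ hfin)
    (h₁ : SemilinearAut.IntertwinesAlong φ.toRingHom g g')
    (h₂ : SemilinearAut.IntertwinesAlong ψ.toRingHom g g') (x : Pic0 K F) :
    Pic0.correspondence φ ψ hφ hψ hFI hfin hN (g • x)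
      = g • Pic0.correspondence φ ψ hφ hψ hFI hfin hN x := by
  obtain ⟨D, rfl⟩ := Pic0.mk_surjective x
  rw [SemilinearAut.pic0_smul_mk, Pic0.correspondence_mk, Pic0.correspondence_mk,
    SemilinearAut.pic0_smul_mk]
  refine congrArg Pic0.mk (Subtype.ext ?_)
  rw [Pic0.coe_degZeroCorrespondence, SemilinearAut.coe_degZeroSMulHom,
    SemilinearAut.coe_degZeroSMulHom, Pic0.coe_degZeroCorrespondence]
  exact gasmhg_correspondence_smul φ ψ hφ hψ h₁ h₂ D

end Along

section Modular

theorem gasmhg_coeffMap_qExpand {R S : Type*} [CommRing R] [CommRing S] (f : R →+* S) (n : ℕ)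
    [NeZero n] (x : LaurentSeries R) :
    coeffMap f (qExpand R n x) = qExpand S n (coeffMap f x) := by
  ext k
  by_cases hk : (n : ℤ) ∣ k
  · obtain ⟨m, rfl⟩ := hk
    rw [coeffMap_coeff, qExpand_coeff_mul, qExpand_coeff_mul, coeffMap_coeff]
  · rw [coeffMap_coeff, qExpand_coeff_of_not_dvd n _ hk, qExpand_coeff_of_not_dvd n _ hk,
      map_zero]

variable (N ℓ : ℕ) [NeZero N] [NeZero ℓ]
  (σ : AlgebraicClosure ℚ ≃ₐ[ℚ] AlgebraicClosure ℚ)

theorem gasmhg_alpha_intertwines :
    SemilinearAut.IntertwinesAlong (heckeAlphaBar (AlgebraicClosure ℚ) N ℓ).toRingHom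
      (arithmeticGalois (modularFunctionFieldFull N) σ)
      (arithmeticGalois (modularFunctionFieldFull (N * ℓ)) σ) := by
  intro x
  apply Subtype.ext
  rw [coe_arithmeticGalois_smul]
  show coeffMap (σ : AlgebraicClosure ℚ →+* AlgebraicClosure ℚ)
      ((heckeAlphaBar (AlgebraicClosure ℚ) N ℓ x :
        laurentBaseChange (AlgebraicClosure ℚ) (modularFunctionFieldFull (N * ℓ))) :
          LaurentSeries (AlgebraicClosure ℚ))
    = ((heckeAlphaBar (AlgebraicClosure ℚ) N ℓ
        (arithmeticGalois (modularFunctionFieldFull N) σ • x) :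
        laurentBaseChange (AlgebraicClosure ℚ) (modularFunctionFieldFull (N * ℓ))) :
          LaurentSeries (AlgebraicClosure ℚ))
  rw [coe_heckeAlphaBar, coe_heckeAlphaBar, coe_arithmeticGalois_smul]

theorem gasmhg_beta_intertwines :
    SemilinearAut.IntertwinesAlong (heckeBetaBar (AlgebraicClosure ℚ) N ℓ).toRingHom
      (arithmeticGalois (modularFunctionFieldFull N) σ)
      (arithmeticGalois (modularFunctionFieldFull (N * ℓ)) σ) := by
  intro x
  apply Subtype.ext
  rw [coe_arithmeticGalois_smul]
  show coeffMap (σ : AlgebraicClosure ℚ →+* AlgebraicClosure ℚ)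
      ((heckeBetaBar (AlgebraicClosure ℚ) N ℓ x :
        laurentBaseChange (AlgebraicClosure ℚ) (modularFunctionFieldFull (N * ℓ))) :
          LaurentSeries (AlgebraicClosure ℚ))
    = ((heckeBetaBar (AlgebraicClosure ℚ) N ℓ
        (arithmeticGalois (modularFunctionFieldFull N) σ • x) :
        laurentBaseChange (AlgebraicClosure ℚ) (modularFunctionFieldFull (N * ℓ))) :
          LaurentSeries (AlgebraicClosure ℚ))
  rw [coe_heckeBetaBar, coe_heckeBetaBar, coe_arithmeticGalois_smul, gasmhg_coeffMap_qExpand]

end Modular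

/-- (HG) the Galois action on `J₀(N)(ℚ̄)` commutes with `T_ℓ`. -/
theorem gasm_hecke_galois (N : ℕ) [NeZero N] (ℓ : Nat.Primes) (σ : GasmGQ) (x : JZero N) :
    σ • heckeOperatorBar N ℓ x = heckeOperatorBar N ℓ (σ • x) := by
  have : NeZero (ℓ : ℕ) := ⟨ℓ.2.ne_zero⟩
  rw [heckeOperatorBar_apply, heckeOperatorBar_apply]
  by_cases h : HeckeInputsAlong (AlgebraicClosure ℚ) N ℓ
  · obtain ⟨hα, hβ, hP, hfin, hFI, hN⟩ := h
    rw [heckeOperatorAlong_eq hα hβ hFI hfin hN, galois_smul_pic0_def, galois_smul_pic0_def]
    exact (gasmhg_pic0_correspondence_smul _ _ hβ hα hFI hfin hN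
      (gasmhg_beta_intertwines N ℓ σ) (gasmhg_alpha_intertwines N ℓ σ) x).symm
  · rw [heckeOperatorAlong_of_not h, AddMonoidHom.zero_apply, AddMonoidHom.zero_apply,
      smul_zero]

end Fermat.Agent.G
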