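import Mathlib
import Fermat.Prelude.Def_ExtCitation_KummerBridge
import Fermat.Prelude.Def_EllipticCurve_FrobeniusTrace
import Fermat.Agent.S05.Inertia

/-!
# Program G, package Asm, leaf (CYC) : the mod `p` cyclotomic character of a Frobenius at `q ≠ p`

`gasmc_cyclo_frob` (= `gasm_cyclo_frob` of `G/Asm/Spec.lean`, binders VERBATIM): if `σ` is a
Frobenius element at a valuation subring `A` of `ℚ̄` lying over the prime `q ≠ p`, then
`cycloChar p σ = q` in `ZMod p`.

Proof: for a primitive `p`-th root of unity `ζ`, `σ ζ = ζ ^ c` (`c` the value of the character)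
and `σ ζ ≡ ζ ^ q` modulo the maximal ideal of `A`; if `c ≢ q mod p` then `η := ζ ^ c / ζ ^ q` is a
primitive `p`-th root of unity with `v (1 - η) < 1`, while `p = ∏ (1 - μ)` is a unit of `A`.
-/

set_option autoImplicit false

namespace Fermat.Agent.G

/-- a root of unity has valuation one -/
theorem gasmc_valuation_eq_one {K : Type*} [Field K] (A : ValuationSubring K) {ζ : K} {n : ℕ}
    (hn : n ≠ 0) (h : ζ ^ n = 1) : A.valuation ζ = 1 := by
  have h1 : A.valuation ζ ^ n = 1 := by rw [← map_pow, h, map_one]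
  rcases lt_trichotomy (A.valuation ζ) 1 with hlt | heq | hgt
  · exact absurd h1 (ne_of_lt (pow_lt_one₀ zero_le hlt hn))
  · exact heq
  · exact absurd h1 (ne_of_gt (one_lt_pow₀ hgt hn))

/-- `p = ∏ (1 - μ)` over the primitive `p`-th roots of unity -/
theorem gasmc_prod_one_sub {K : Type*} [Field K] {p : ℕ} [Fact p.Prime] {η : K}
    (hη : IsPrimitiveRoot η p) : (p : K) = ∏ μ ∈ primitiveRoots p K, (1 - μ) := by
  have h1 := Polynomial.cyclotomic_eq_prod_X_sub_primitiveRoots hη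
  have h2 := congrArg (Polynomial.eval 1) h1
  rw [Polynomial.eval_one_cyclotomic_prime, Polynomial.eval_prod] at h2
  simpa using h2

/-- if `A` lies over `q ≠ p`, then `1 - η` is a unit of `A` for a primitive `p`-th root `η` -/
theorem gasmc_valuation_one_sub {K : Type*} [Field K] {p : ℕ} [Fact p.Prime] {q : ℕ}
    (hq : q.Prime) (hqp : q ≠ p) (A : ValuationSubring K) (hA : A.LiesOverPrime q) {η : K}
    (hη : IsPrimitiveRoot η p) : A.valuation (1 - η) = 1 := by
  classical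
  have hp : p.Prime := Fact.out
  have hle : ∀ μ ∈ primitiveRoots p K, A.valuation (1 - μ) ≤ 1 := by
    intro μ hμ
    have hμ' : μ ^ p = 1 := ((mem_primitiveRoots hp.pos).1 hμ).pow_eq_one
    refine le_trans (A.valuation.map_sub _ _) ?_
    rw [map_one, gasmc_valuation_eq_one A hp.ne_zero hμ', max_self]
  have hvp : A.valuation ((p : ℤ) : K) = 1 := by
    rw [Fermat.Agent.S05.valuation_intCast_eq_one_iff A hq hA]
    intro hdvd
    have : q ∣ p := by exact_mod_cast hdvd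
    exact hqp ((Nat.prime_dvd_prime_iff_eq hq hp).1 this)
  rw [Int.cast_natCast, gasmc_prod_one_sub hη, map_prod] at hvp
  have hmem : η ∈ primitiveRoots p K := (mem_primitiveRoots hp.pos).2 hη
  rw [← Finset.mul_prod_erase _ _ hmem] at hvp
  refine le_antisymm (hle η hmem) ?_
  by_contra hlt
  rw [not_le] at hlt
  have h3 : ∏ μ ∈ (primitiveRoots p K).erase η, A.valuation (1 - μ) ≤ 1 :=
    Finset.prod_le_one' fun μ hμ => hle μ (Finset.mem_of_mem_erase hμ)
  have h4 : A.valuation (1 - η) * ∏ μ ∈ (primitiveRoots p K).erase η, A.valuation (1 - μ) < 1 :=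
    calc _ ≤ A.valuation (1 - η) * 1 := by gcongr
      _ < 1 := by simpa using hlt
  rw [hvp] at h4
  exact lt_irrefl _ h4

/-- the Frobenius congruence on the valuation ring -/
theorem gasmc_frob_congr (A : ValuationSubring (AlgebraicClosure ℚ))
    (φ : AlgebraicClosure ℚ ≃ₐ[ℚ] AlgebraicClosure ℚ) (q : ℕ) (hφ : A.IsFrobeniusAt φ q)
    (x : AlgebraicClosure ℚ) (hx : x ∈ A) : φ x - x ^ q ∈ A.nonunits := by
  obtain ⟨hdec, hres⟩ := hφ
  set b : A := ⟨x, hx⟩ with hb
  have h1 := hres (IsLocalRing.residue A b)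
  rw [← IsLocalRing.ResidueField.residue_smul, ← map_pow] at h1
  have h2 : (⟨φ, hdec⟩ : A.decompositionSubgroup ℚ) • b - b ^ q ∈ IsLocalRing.maximalIdeal A :=
    Ideal.Quotient.eq.mp h1
  rw [← ValuationSubring.coe_mem_nonunits_iff] at h2
  exact h2

/-- the defining property of the mod `p` cyclotomic character on a `p`-th root of unity -/
theorem gasmc_cycloChar_spec (p : ℕ) [Fact p.Prime]
    (σ : AlgebraicClosure ℚ ≃ₐ[ℚ] AlgebraicClosure ℚ) {ζ : AlgebraicClosure ℚ}
    (hζ : ζ ^ p = 1) :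
    σ ζ = ζ ^ ((ExtCitation.cycloChar p σ : (ZMod p)ˣ) : ZMod p).val := by
  have : NeZero p := ⟨(Fact.out : p.Prime).ne_zero⟩
  have hp : p.Prime := Fact.out
  have hu : IsUnit ζ := IsUnit.of_pow_eq_one hζ hp.ne_zero
  obtain ⟨t, rfl⟩ := hu
  have ht : t ∈ rootsOfUnity p (AlgebraicClosure ℚ) := by
    rw [mem_rootsOfUnity]
    exact Units.ext (by simpa using hζ)
  exact modularCyclotomicCharacter.spec (AlgebraicClosure ℚ)
    (ExtCitation.card_rootsOfUnity_eq_self p)
    (σ : AlgebraicClosure ℚ ≃+* AlgebraicClosure ℚ) ht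

/-- (CYC) the mod `p` cyclotomic character of a Frobenius element at `q ≠ p` is `q`. -/
theorem gasmc_cyclo_frob (p : ℕ) [Fact p.Prime] (q : ℕ) (hq : q.Prime) (hqp : q ≠ p)
    (A : ValuationSubring (AlgebraicClosure ℚ)) (hA : A.LiesOverPrime q)
    (σ : AlgebraicClosure ℚ ≃ₐ[ℚ] AlgebraicClosure ℚ) (hσ : A.IsFrobeniusAt σ q) :
    ((ExtCitation.cycloChar p σ : (ZMod p)ˣ) : ZMod p) = (q : ZMod p) := by
  have : NeZero p := ⟨(Fact.out : p.Prime).ne_zero⟩
  have hp : p.Prime := Fact.out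
  have : NeZero ((p : ℕ) : AlgebraicClosure ℚ) := ⟨Nat.cast_ne_zero.mpr hp.ne_zero⟩
  obtain ⟨ζ, hζ⟩ := HasEnoughRootsOfUnity.exists_primitiveRoot (AlgebraicClosure ℚ) p
  set c : ℕ := ((ExtCitation.cycloChar p σ : (ZMod p)ˣ) : ZMod p).val with hc
  have hcast : ((ExtCitation.cycloChar p σ : (ZMod p)ˣ) : ZMod p) = (c : ZMod p) := by
    rw [hc, ZMod.natCast_zmod_val]
  rw [hcast]
  by_contra hne
  have hσζ : σ ζ = ζ ^ c := gasmc_cycloChar_spec p σ hζ.pow_eq_one
  have hvζ : A.valuation ζ = 1 := gasmc_valuation_eq_one A hp.ne_zero hζ.pow_eq_one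
  have hζA : ζ ∈ A := (A.valuation_le_one_iff ζ).1 hvζ.le
  have h1 := gasmc_frob_congr A σ q hσ ζ hζA
  rw [hσζ, ValuationSubring.mem_nonunits_iff] at h1
  have hζ0 : ζ ≠ 0 := hζ.ne_zero hp.ne_zero
  -- `η = ζ ^ c / ζ ^ q` is a primitive `p`-th root of unity
  have hηp : (ζ ^ c / ζ ^ q) ^ p = 1 := by
    rw [div_pow, ← pow_mul, ← pow_mul, mul_comm c, mul_comm q, pow_mul, pow_mul, hζ.pow_eq_one,
      one_pow, one_pow, div_one]
  have hη1 : ζ ^ c / ζ ^ q ≠ 1 := by
    intro h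
    rw [div_eq_one_iff_eq (pow_ne_zero _ hζ0)] at h
    apply hne
    rw [ZMod.natCast_eq_natCast_iff]
    have h' : ζ ^ (c % p) = ζ ^ (q % p) := by
      have e1 : ζ ^ (c % p) = ζ ^ c := by
        conv_lhs => rw [hζ.eq_orderOf]
        exact pow_mod_orderOf ζ c
      have e2 : ζ ^ (q % p) = ζ ^ q := by
        conv_lhs => rw [hζ.eq_orderOf]
        exact pow_mod_orderOf ζ q
      rw [e1, e2, h]
    exact hζ.pow_inj (Nat.mod_lt _ hp.pos) (Nat.mod_lt _ hp.pos) h'
  have hprim : IsPrimitiveRoot (ζ ^ c / ζ ^ q) p :=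
    isPrimitiveRoot_of_mem_nthRootsFinset hp ((Polynomial.mem_nthRootsFinset hp.pos _).2 hηp) hη1
  have h2 := gasmc_valuation_one_sub hq hqp A hA hprim
  have h3 : A.valuation (1 - ζ ^ c / ζ ^ q) = A.valuation (ζ ^ c - ζ ^ q) := by
    rw [Valuation.map_sub_swap,
      show ζ ^ c / ζ ^ q - 1 = (ζ ^ c - ζ ^ q) / ζ ^ q by
        field_simp,
      map_div₀, map_pow, hvζ, one_pow, div_one]
  rw [h3] at h2
  rw [h2] at h1
  exact lt_irrefl _ h1

end Fermat.Agent.G
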