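import Mathlib

/-!
# Program G, package Asm, leaf (LUC) : a quadratic relation passes to powers

`gasml_lucas` (= `gasm_lucas` of `G/Asm/Spec.lean`, binders VERBATIM): in a `κ`-algebra `E`,
`h² - τ h + δ = 0` implies `(h^n)² - s_n h^n + δ^n = 0` for some `s_n ∈ κ`.

Proof: `h' := τ - h` commutes with `h`, `h + h' = τ`, `h h' = δ`; the power sums `h^n + h'^n` are
scalars `s_n` (`s_{n+2} = τ s_{n+1} - δ s_n`), and `(h^n)² - (h^n + h'^n) h^n + (h h')^n = 0`.
-/

set_option autoImplicit false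

namespace Fermat.Agent.G

/-- power sums of the two "roots" `h`, `h' = τ - h` are scalars. -/
theorem gasml_powerSum {κ : Type*} [Field κ] {E : Type*} [Ring E] [Algebra κ E] (h h' : E)
    (τ δ : κ) (hc : Commute h h') (hsum : h + h' = τ • (1 : E)) (hprod : h * h' = δ • (1 : E))
    (n : ℕ) :
    ∃ s s' : κ, h ^ n + h' ^ n = s • (1 : E) ∧ h ^ (n + 1) + h' ^ (n + 1) = s' • (1 : E) := by
  induction n with
  | zero =>
    refine ⟨2, τ, ?_, ?_⟩
    · rw [pow_zero, pow_zero, two_smul]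
    · rw [zero_add, pow_one, pow_one, hsum]
  | succ n ih =>
    obtain ⟨s, s', hs, hs'⟩ := ih
    refine ⟨s', τ * s' - δ * s, hs', ?_⟩
    have hrec : h ^ (n + 1 + 1) + h' ^ (n + 1 + 1) =
        (h + h') * (h ^ (n + 1) + h' ^ (n + 1)) - (h * h') * (h ^ n + h' ^ n) := by
      have c1 : h * h' ^ (n + 1) = h * h' * h' ^ n := by rw [pow_succ', mul_assoc]
      have c2 : h' * h ^ (n + 1) = h * h' * h ^ n := by
        rw [pow_succ', ← mul_assoc, hc.eq]
      have c3 : h * h ^ (n + 1) = h ^ (n + 1 + 1) := (pow_succ' h (n + 1)).symm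
      have c4 : h' * h' ^ (n + 1) = h' ^ (n + 1 + 1) := (pow_succ' h' (n + 1)).symm
      rw [add_mul, mul_add, mul_add, mul_add, c1, c2, c3, c4]
      abel
    rw [hrec, hsum, hprod, hs, hs', smul_mul_assoc, smul_mul_assoc, one_mul, one_mul, smul_smul,
      smul_smul, ← sub_smul]

/-- (LUC) in any ring, `h² - τ h + δ = 0` with `τ, δ` central scalars implies a relation of the
same shape for every power: `(h^n)² - s_n h^n + δ^n = 0`. -/
theorem gasml_lucas {κ : Type*} [Field κ] {E : Type*} [Ring E] [Algebra κ E] (h : E) (τ δ : κ)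
    (hh : h * h - τ • h + δ • (1 : E) = 0) (n : ℕ) :
    ∃ s : κ, h ^ n * h ^ n - s • h ^ n + δ ^ n • (1 : E) = 0 := by
  have e1 : h * h = τ • h - δ • (1 : E) := sub_eq_zero.mp (by rw [← hh]; abel)
  have hc : Commute h (τ • (1 : E) - h) :=
    Commute.sub_right ((Commute.one_right h).smul_right τ) (Commute.refl h)
  have hsum : h + (τ • (1 : E) - h) = τ • (1 : E) := by abel
  have hprod : h * (τ • (1 : E) - h) = δ • (1 : E) := by
    rw [mul_sub, mul_smul_comm, mul_one, e1]; abel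
  obtain ⟨s, -, hs, -⟩ := gasml_powerSum h (τ • (1 : E) - h) τ δ hc hsum hprod n
  refine ⟨s, ?_⟩
  have h1 : s • h ^ n = h ^ n * h ^ n + h ^ n * (τ • (1 : E) - h) ^ n := by
    have : s • h ^ n = h ^ n * (s • (1 : E)) := by rw [mul_smul_comm, mul_one]
    rw [this, ← hs, mul_add]
  have h2 : h ^ n * (τ • (1 : E) - h) ^ n = δ ^ n • (1 : E) := by
    rw [← hc.mul_pow, hprod, smul_pow, one_pow]
  rw [h1, h2]
  abel

end Fermat.Agent.G
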