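import Mathlib
import Fermat.Agent.G.Asm.Defs
import Fermat.Agent.G.Open.Main

/-!
# Program G, package Asm, leaf (OS): points of `J₀(N)(ℚ̄)` have open stabilisers

`gasm_open_stab` is an immediate consequence of `gop_exists_fixing` (G/Open, helper28): EVERY point
of `J₀(N)(ℚ̄)` (torsion or not) is fixed by `Gal(ℚ̄ / L)` for a number field `L`.
-/

set_option autoImplicit false
set_option linter.unusedVariables false

noncomputable section

namespace Fermat.Agent.G

open CongruenceSubgroup ModularCurve AlgebraicCurve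

/-- every point of `J₀(N)(ℚ̄)` is fixed by an open subgroup (no torsion hypothesis needed). -/
theorem gasmos_open_stab (N : ℕ) [NeZero N] (x : JZero N) :
    ∃ L : IntermediateField ℚ (AlgebraicClosure ℚ), FiniteDimensional ℚ L ∧
      ∀ σ : GasmGQ, (∀ y ∈ L, σ y = y) → σ • x = x := by
  obtain ⟨E, hE, h⟩ := gop_exists_fixing N x
  refine ⟨E, hE, fun σ hσ => h σ ?_⟩
  rw [IntermediateField.mem_fixingSubgroup_iff]
  exact hσ

/-- (OS) every TORSION point of `J₀(N)(ℚ̄)` is fixed by an open subgroup. -/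
theorem gasm_open_stab (N : ℕ) [NeZero N] (n : ℕ) (hn : n ≠ 0) (x : JZero N) (hx : n • x = 0) :
    ∃ L : IntermediateField ℚ (AlgebraicClosure ℚ), FiniteDimensional ℚ L ∧
      ∀ σ : GasmGQ, (∀ y ∈ L, σ y = y) → σ • x = x :=
  gasmos_open_stab N x

end Fermat.Agent.G
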