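import Fermat.Agent.G.Asm.Defs
import Fermat.Agent.G.Per.Mult
import Fermat.Agent.G.Per.Fg
import Fermat.Agent.G.Per.Period

/-!
# Program G, package Asm, leaf PER: the period character of a normalised eigenform

`gasm_period` and `gasm_ab_fg`, VERBATIM from `G/Asm/Spec.lean`.
-/

set_option autoImplicit false

noncomputable section

namespace Fermat.Agent.G

open CongruenceSubgroup ModularCurve ModularCurve.Period AlgebraicCurve Fermat.Agent.S16LB
open scoped MatrixGroups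

/-- `Γ₀(N)^ab` is finitely generated (Schreier + `SL(2, ℤ) = ⟨S, T⟩`). -/
theorem gasm_ab_fg (N : ℕ) [NeZero N] : AddGroup.FG (s16lbAb N) := gpr_ab_fg N

/-- eigenvalues of endomorphisms of a finitely generated abelian group on nonzero complex
characters are algebraic integers. -/
theorem gasmp_isIntegral_of_eigen {H : Type*} [AddCommGroup H] (hH : AddGroup.FG H)
    (τ : H →+ H) (ψ : H →+ ℂ) (hψ : ψ ≠ 0) (a : ℂ) (heig : ψ.comp τ = a • ψ) :
    IsIntegral ℤ a := by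
  let Λ : Submodule ℤ ℂ := LinearMap.range ψ.toIntLinearMap
  have hmemΛ : ∀ h : H, ψ h ∈ Λ := fun h => ⟨h, rfl⟩
  have hfg : Λ.FG := by
    have : Module.Finite ℤ H := Module.Finite.iff_addGroup_fg.mpr hH
    exact Module.Finite.iff_fg.mp (Module.Finite.range ψ.toIntLinearMap)
  have hΛ : Λ ≠ ⊥ := by
    intro h
    apply hψ
    refine AddMonoidHom.ext fun x => ?_
    have := hmemΛ x
    rw [h, Submodule.mem_bot] at this
    exact this
  refine gprm_isIntegral_of_mem hfg hΛ ?_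
  rintro _ ⟨h, rfl⟩
  refine ⟨τ h, ?_⟩
  have := DFunLike.congr_fun heig h
  simpa using this

/-- **(PER)** -/
theorem gasm_period (N : ℕ) [NeZero N] (g : CuspForm (Gamma0 N) 2) (hg : g.IsNormalizedEigenform) :
    ∃ ψ : s16lbAb N →+ ℂ, ψ ≠ 0 ∧ GasmPE ψ ∧
      ∀ (ℓ : ℕ) [Fact ℓ.Prime] (hℓN : ¬ ℓ ∣ N),
        ∃ a : integralClosure ℤ ℂ, (a : ℂ) = ModularFormClass.qCoeff g ℓ ∧
          ψ.comp (gasmTr N ℓ hℓN) = (a : ℂ) • ψ := by
  obtain ⟨h1, h2, h3⟩ := gpr_period_eigen hg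
  refine ⟨s16lbDesc (periodMap N g), h2, h1, fun ℓ _ hℓN => ?_⟩
  have heig : (s16lbDesc (periodMap N g)).comp (gasmTr N ℓ hℓN)
      = ModularFormClass.qCoeff g ℓ • s16lbDesc (periodMap N g) := by
    have := h3 ℓ Fact.out hℓN
    rwa [gprT_eq N hℓN] at this
  have hint : IsIntegral ℤ (ModularFormClass.qCoeff g ℓ) :=
    gasmp_isIntegral_of_eigen (gasm_ab_fg N) _ _ h2 _ heig
  exact ⟨⟨ModularFormClass.qCoeff g ℓ, hint⟩, rfl, heig⟩

end Fermat.Agent.G
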