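import Mathlib
import Fermat.Agent.G.Asm.Defs
import Fermat.Prelude.Def_ExtCitation_KummerBridge
import Fermat.Agent.G.Kum.Theta
import Fermat.Agent.G.EsTor.Main
import Fermat.Agent.G.Asm.HeckeGalois
import Fermat.Agent.G.Asm.OpenStab
import Fermat.Agent.G.Asm.Period
import Fermat.Agent.G.Asm.Reduce
import Fermat.Agent.G.Asm.Lift
import Fermat.Agent.G.Asm.Lucas
import Fermat.Agent.G.Asm.Cyclo

/-!
# Program G, package Asm : SPEC, WIRED (helper29 integration): every black box is now imported from its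
real file (`gasm_hecke_galois`, `gasm_open_stab`, `gasm_period`, `gasm_ab_fg`, `gasm_reduce`, `gasm_lift` keep
their names in `Asm/{HeckeGalois,OpenStab,Period,Reduce,Lift}.lean`; `gasm_cliff` is superseded by `G/Res.lean`)

INPUTS FROM THE OTHER PACKAGES
* `gasm_theta`        (G/Kum + G/Desc, helper22 + helper13)  the multiplier map
* `gasm_es`           (G/Red + G/HeckeRed + S18, helper12 + helper19)  Eichler–Shimura on torsion
* `gasm_cliff`        (G/Cliff, helper2)
LEAVES OF THIS PACKAGE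
* `gasm_hecke_galois` (HG)  Galois commutes with the Hecke operators of `J₀(N)`
* `gasm_open_stab`    (OS)  open stabilisers on the torsion of `J₀(N)(ℚ̄)`
* `gasm_period`       (PER) the period character of a normalised eigenform
* `gasm_reduce`       (RED) reduction of an eigen-character mod `p` (pure algebra)
* `gasm_lift`         (LIFT) from an eigen-character with values in `κ` to `κ ⊗ J[p]` (pure algebra)
* `gasm_lucas`        (LUC) a quadratic relation passes to powers (pure algebra)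
* `gasm_cyclo_frob`   (CYC) the mod `p` cyclotomic character of a Frobenius
-/

set_option autoImplicit false

noncomputable section

namespace Fermat.Agent.G

open CongruenceSubgroup ModularCurve AlgebraicCurve Fermat.Agent.S16LB Polynomial
open scoped MatrixGroups TensorProduct

/-! ### inputs from G/Kum + G/Desc -/

/-- (THETA) the multiplier map `χ ↦ [D_χ]`, `div(h_χ^p) = p D_χ`, descended to `ℚ̄`:
injective and Hecke equivariant for `ℓ ∤ N p`. -/
theorem gasm_theta (N : ℕ) [NeZero N] (p : ℕ) [Fact p.Prime] :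
    ∃ Θ : gasmPEHoms N (ZMod p) →+ JZero N, Function.Injective Θ ∧
      ∀ (ℓ : ℕ) [Fact ℓ.Prime] (hℓN : ¬ ℓ ∣ N) (_ : ℓ ≠ p) (χ χ' : gasmPEHoms N (ZMod p)),
        (χ' : s16lbAb N →+ ZMod p) = (χ : s16lbAb N →+ ZMod p).comp (gasmTr N ℓ hℓN) →
          Θ χ' = heckeOperatorBar N ⟨ℓ, Fact.out⟩ (Θ χ) :=
  gkt_gasm_theta N p

/-! ### input from G/Red + G/HeckeRed + S18 -/

/-- (ES) Eichler–Shimura on the `p`-power torsion of `J₀(N)(ℚ̄)`, `ℓ ∤ N p`: inertia acts trivially
and every Frobenius satisfies `σ² - T_ℓ σ + ℓ = 0`.  (= helper19's (I2)+(I3)+(I4): apply the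
reduction map and S18; no commutativity hypothesis.) -/
theorem gasm_es (N : ℕ) [NeZero N] (p : ℕ) [Fact p.Prime] (ℓ : ℕ) (hℓ : ℓ.Prime)
    (hℓNp : ¬ ℓ ∣ N * p) (A : ValuationSubring (AlgebraicClosure ℚ)) (hA : A.LiesOverPrime ℓ) :
    (∀ σ ∈ A.inertiaSubgroupIn ℚ, ∀ x : JZero N, (∃ n : ℕ, p ^ n • x = 0) → σ • x = x) ∧
    (∀ σ : GasmGQ, A.IsFrobeniusAt σ ℓ → ∀ x : JZero N, (∃ n : ℕ, p ^ n • x = 0) →
      σ • σ • x - heckeOperatorBar N ⟨ℓ, hℓ⟩ (σ • x) + ℓ • x = 0) := by
  have hℓN : ¬ ℓ ∣ N := fun h => hℓNp (Dvd.dvd.mul_right h p)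
  have hℓp : ℓ ≠ p := by
    rintro rfl
    exact hℓNp (Dvd.intro_left N rfl)
  exact g_es_torsion N p Fact.out ℓ hℓ hℓN hℓp A hA

/-! ### input from G/Cliff -/

/-! ### leaves of this package -/

/-- (LUC) in any ring, `h² - τ h + δ = 0` with `τ, δ` central scalars implies a relation of the
same shape for every power: `(h^n)² - s_n h^n + δ^n = 0`. -/
theorem gasm_lucas {κ : Type*} [Field κ] {E : Type*} [Ring E] [Algebra κ E] (h : E) (τ δ : κ)
    (hh : h * h - τ • h + δ • (1 : E) = 0) (n : ℕ) :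
    ∃ s : κ, h ^ n * h ^ n - s • h ^ n + δ ^ n • (1 : E) = 0 :=
  gasml_lucas h τ δ hh n

/-- (CYC) the mod `p` cyclotomic character of a Frobenius at `q ≠ p` is `q`. -/
theorem gasm_cyclo_frob (p : ℕ) [Fact p.Prime] (q : ℕ) (hq : q.Prime) (hqp : q ≠ p)
    (A : ValuationSubring (AlgebraicClosure ℚ)) (hA : A.LiesOverPrime q) (σ : GasmGQ)
    (hσ : A.IsFrobeniusAt σ q) :
    ((ExtCitation.cycloChar p σ : (ZMod p)ˣ) : ZMod p) = (q : ZMod p) :=
  gasmc_cyclo_frob p q hq hqp A hA σ hσ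

end Fermat.Agent.G
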