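import Mathlib
import Fermat.Agent.G.Asm.Defs
import Fermat.Agent.G.Asm.Span
import Fermat.Agent.G.Open

/-!
# Program G, package Asm : the Galois module `κ ⊗ J₀(N)(ℚ̄)[p]`

* `gasmTp N p ℓ` : the Hecke operator `T_ℓ` restricted to `J₀(N)(ℚ̄)[p]`, `𝔽_p`-linear;
* `gasmRhoM N p κ` : the Galois action on `κ ⊗[𝔽_p] J₀(N)(ℚ̄)[p]`;
* `gasm_exists_level` : every element of `κ ⊗ J[p]` is fixed by `Gal(ℚ̄/E)` for a finite Galois
  `E/ℚ`; consequently its orbit is finite and the span of its orbit factors through `Gal(E/ℚ)`.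
-/

set_option autoImplicit false
set_option linter.unusedSectionVars false
set_option linter.style.haveILetI false

noncomputable section

namespace Fermat.Agent.G

open CongruenceSubgroup ModularCurve AlgebraicCurve Polynomial
open scoped TensorProduct

local notation "Qb" => AlgebraicClosure ℚ
local notation "GQ" => (AlgebraicClosure ℚ ≃ₐ[ℚ] AlgebraicClosure ℚ)

local instance gasmt_isAlgebraic : Algebra.IsAlgebraic ℚ (AlgebraicClosure ℚ) :=
  AlgebraicClosure.isAlgebraic ℚ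
local instance gasmt_isAlgClosure : IsAlgClosure ℚ (AlgebraicClosure ℚ) :=
  ⟨inferInstance, inferInstance⟩
local instance gasmt_normal : Normal ℚ (AlgebraicClosure ℚ) :=
  IsAlgClosure.normal ℚ (AlgebraicClosure ℚ)

variable (N : ℕ) [NeZero N] (p : ℕ) [Fact p.Prime]

/-- `T_ℓ` preserves the `p`-torsion. -/
theorem gasm_hecke_mem_torsion (ℓ : Nat.Primes) (x : JZero N) (hx : x ∈ gasmJp N p) :
    heckeOperatorBar N ℓ x ∈ gasmJp N p := by
  rw [Pic0.mem_torsion] at hx ⊢
  rw [← map_zsmul, hx, map_zero]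

/-- `T_ℓ` on `J₀(N)(ℚ̄)[p]`. -/
def gasmTp (ℓ : Nat.Primes) : gasmJp N p →ₗ[ZMod p] gasmJp N p :=
  AddMonoidHom.toZModLinearMap p
    (((heckeOperatorBar N ℓ).toAddMonoidHom.comp (gasmJp N p).subtype).codRestrict (gasmJp N p)
      (fun x => gasm_hecke_mem_torsion N p ℓ x.1 x.2))

@[simp]
theorem gasmTp_coe (ℓ : Nat.Primes) (x : gasmJp N p) :
    ((gasmTp N p ℓ x : gasmJp N p) : JZero N) = heckeOperatorBar N ℓ (x : JZero N) := rfl

variable (κ : Type*) [Field κ] [Algebra (ZMod p) κ]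

/-- shortcut instance (the nested unification problem for `TensorProduct.addCommGroup` gets stuck
on submodules of `κ ⊗ J[p]` otherwise). -/
instance gasmTensorAddCommGroup : AddCommGroup (κ ⊗[ZMod p] gasmJp N p) :=
  TensorProduct.addCommGroup

/-- the Galois action on `κ ⊗ J₀(N)(ℚ̄)[p]`. -/
def gasmRhoM : GQ →* Module.End κ (κ ⊗[ZMod p] gasmJp N p) where
  toFun σ := (JZero.torsionGaloisRep N p σ).baseChange κ
  map_one' := by rw [map_one, LinearMap.baseChange_one]
  map_mul' σ τ := by rw [map_mul, LinearMap.baseChange_mul]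

theorem gasmRhoM_apply (σ : GQ) :
    gasmRhoM N p κ σ = (JZero.torsionGaloisRep N p σ).baseChange κ := rfl

theorem gasmRhoM_tmul (σ : GQ) (c : κ) (P : gasmJp N p) :
    gasmRhoM N p κ σ (c ⊗ₜ[ZMod p] P) = c ⊗ₜ[ZMod p] (JZero.torsionGaloisRep N p σ P) := by
  rw [gasmRhoM_apply, LinearMap.baseChange_tmul]

/-- a finite set of points controls the action on a given tensor. -/
theorem gasm_exists_finset (x : κ ⊗[ZMod p] gasmJp N p) :
    ∃ s : Finset (JZero N), ∀ σ : GQ, (∀ P ∈ s, σ • P = P) → gasmRhoM N p κ σ x = x := by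
  classical
  induction x using TensorProduct.induction_on with
  | zero => exact ⟨∅, fun σ _ => map_zero _⟩
  | tmul c P =>
    refine ⟨{(P : JZero N)}, fun σ hσ => ?_⟩
    rw [gasmRhoM_tmul]
    congr 1
    apply Subtype.ext
    rw [JZero.coe_torsionGaloisRep_apply]
    exact hσ _ (Finset.mem_singleton_self _)
  | add y z hy hz =>
    obtain ⟨s, hs⟩ := hy
    obtain ⟨t, ht⟩ := hz
    refine ⟨s ∪ t, fun σ hσ => ?_⟩
    rw [map_add, hs σ (fun P hP => hσ P (Finset.mem_union_left _ hP)),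
      ht σ (fun P hP => hσ P (Finset.mem_union_right _ hP))]

/-- every element of `κ ⊗ J[p]` is fixed by `Gal(ℚ̄/E)`, `E/ℚ` finite Galois. -/
theorem gasm_exists_level (x : κ ⊗[ZMod p] gasmJp N p) :
    ∃ E : IntermediateField ℚ Qb, FiniteDimensional ℚ E ∧ IsGalois ℚ E ∧
      ∀ σ : GQ, σ ∈ E.fixingSubgroup → gasmRhoM N p κ σ x = x := by
  obtain ⟨s, hs⟩ := gasm_exists_finset N p κ x
  obtain ⟨E, hE1, hE2, hE3⟩ := gopq_exists_fixing_finset_JZero_galois N s
  exact ⟨E, hE1, hE2, fun σ hσ => hs σ (fun P hP => hE3 σ hσ P hP)⟩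

/-- conjugates of elements fixing a normal subfield fix it. -/
theorem gasm_conj_mem_fixingSubgroup (E : IntermediateField ℚ Qb) (hE : IsGalois ℚ E) (g σ : GQ)
    (hσ : σ ∈ E.fixingSubgroup) : g⁻¹ * σ * g ∈ E.fixingSubgroup := by
  have h4 : (DivisionRing.toRatAlgebra : Algebra ℚ E) = E.algebra' := Subsingleton.elim _ _
  rw [h4] at hE
  have hnorm : @Normal ℚ E _ _ E.algebra' := hE.to_normal
  rw [IntermediateField.mem_fixingSubgroup_iff] at hσ ⊢
  intro y hy
  have hmap : E.map (g : Qb →ₐ[ℚ] Qb) ≤ E :=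
    (IntermediateField.normal_iff_forall_map_le' (F := ℚ) (L := Qb)).mp hnorm g
  have hgy : g y ∈ E := hmap ⟨y, hy, rfl⟩
  show g⁻¹ (σ (g y)) = y
  rw [hσ _ hgy]
  exact g.symm_apply_apply y

/-- the orbit of an element of `κ ⊗ J[p]` is finite. -/
theorem gasm_orbit_finite (x : κ ⊗[ZMod p] gasmJp N p) :
    (Set.range fun σ : GQ => gasmRhoM N p κ σ x).Finite := by
  obtain ⟨E, hE1, hE2, hE3⟩ := gasm_exists_level N p κ x
  haveI := hE1
  have hfact : Function.FactorsThrough (fun σ : GQ => gasmRhoM N p κ σ x)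
      (fun σ : GQ => (σ : Qb →ₐ[ℚ] Qb).comp E.val) := by
    intro σ τ h
    have hmem : τ⁻¹ * σ ∈ E.fixingSubgroup := by
      rw [IntermediateField.mem_fixingSubgroup_iff]
      intro y hy
      have := DFunLike.congr_fun h ⟨y, hy⟩
      show τ⁻¹ (σ y) = y
      have h2 : σ y = τ y := this
      rw [h2]
      exact τ.symm_apply_apply y
    have := hE3 _ hmem
    show gasmRhoM N p κ σ x = gasmRhoM N p κ τ x
    have h3 : σ = τ * (τ⁻¹ * σ) := by group
    rw [h3, map_mul, Module.End.mul_apply, this]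
  obtain ⟨e, he⟩ := (Function.factorsThrough_iff _).mp hfact
  rw [he]
  exact (Set.finite_range e).subset (Set.range_comp_subset_range _ e)

end Fermat.Agent.G
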