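import Mathlib
import Fermat.Agent.G.Asm.Spec
import Fermat.Agent.G.Asm.Tensor
import Fermat.Agent.G.Res

/-!
# Program G, package Asm : assembly of S29

`gasm_S29` : the residual Galois representation attached to a normalised eigenform of weight 2 on
`Γ₀(N)` and a ring homomorphism `φ : ℤ̄ → k`, `char k = p`.
-/

set_option autoImplicit false
set_option linter.unusedSectionVars false
set_option linter.unusedVariables false
set_option linter.style.haveILetI false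

noncomputable section

namespace Fermat.Agent.G

open CongruenceSubgroup ModularCurve AlgebraicCurve Fermat.Agent.S16LB Polynomial
open scoped TensorProduct MatrixGroups

local notation "Qb" => AlgebraicClosure ℚ
local notation "GQ" => (AlgebraicClosure ℚ ≃ₐ[ℚ] AlgebraicClosure ℚ)

/-! ### Step A : the eigen-character with values in a finite field -/

/-- (PER + RED) a nonzero character of `Γ₀(N)^ab` with values in a finite field `κ ⊆ k`, killing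
parabolic and elliptic classes, eigen for all `T_ℓ`, `ℓ ∤ N`, with eigenvalues lifting to the
`q`-coefficients of `g`. -/
theorem gasm_eigen_finite (N : ℕ) [NeZero N] (g : CuspForm (Gamma0 N) 2)
    (hg : g.IsNormalizedEigenform) {p : ℕ} [Fact p.Prime] {k : Type} [Field k] [CharP k p]
    (φ : integralClosure ℤ ℂ →+* k) :
    ∃ (κ : Type) (_ : Field κ) (_ : Finite κ) (_ : Algebra (ZMod p) κ) (ι : κ →+* k)
      (a : ℕ → integralClosure ℤ ℂ) (c : ℕ → κ) (ψ' : s16lbAb N →+ κ),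
      ψ' ≠ 0 ∧ GasmPE ψ' ∧
      (∀ ℓ : ℕ, ℓ.Prime → ¬ ℓ ∣ N →
        ((a ℓ : integralClosure ℤ ℂ) : ℂ) = ModularFormClass.qCoeff g ℓ) ∧
      (∀ ℓ : ℕ, ℓ.Prime → ¬ ℓ ∣ N → ι (c ℓ) = φ (a ℓ)) ∧
      ∀ (ℓ : ℕ) [Fact ℓ.Prime] (hℓN : ¬ ℓ ∣ N), ψ'.comp (gasmTr N ℓ hℓN) = c ℓ • ψ' := by
  classical
  obtain ⟨ψ, hψ0, hψPE, hψeig⟩ := gasm_period N g hg
  let I : Type := {ℓ : ℕ // ℓ.Prime ∧ ¬ ℓ ∣ N}
  have hI : ∀ i : I, ∃ a : integralClosure ℤ ℂ, (a : ℂ) = ModularFormClass.qCoeff g i.1 ∧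
      ψ.comp (@gasmTr N i.1 ⟨i.2.1⟩ i.2.2) = (a : ℂ) • ψ := fun i =>
    @hψeig i.1 ⟨i.2.1⟩ i.2.2
  choose a₀ ha₀ ha₀' using hI
  let S : Set (s16lbAb N) := {s | ∃ γ : Gamma0 N,
    (((γ : SL(2, ℤ)) : Matrix (Fin 2) (Fin 2) ℤ).trace) ^ 2 ≤ 4 ∧
      s = s16lbCls N (Additive.ofMul γ)}
  obtain ⟨κ, iF, iFin, iAlg, ι, c₀, ψ', hψ'0, hψ'S, hιc, hψ'eig⟩ :=
    gasm_reduce (gasm_ab_fg N) (fun i : I => @gasmTr N i.1 ⟨i.2.1⟩ i.2.2) S a₀ ψ hψ0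
      (fun s hs => by obtain ⟨γ, hγ, rfl⟩ := hs; exact hψPE γ hγ) ha₀' (p := p) φ
  refine ⟨κ, iF, iFin, iAlg, ι,
    fun ℓ => if h : ℓ.Prime ∧ ¬ ℓ ∣ N then a₀ ⟨ℓ, h⟩ else 0,
    fun ℓ => if h : ℓ.Prime ∧ ¬ ℓ ∣ N then c₀ ⟨ℓ, h⟩ else 0, ψ', hψ'0,
    fun γ hγ => hψ'S _ ⟨γ, hγ, rfl⟩, ?_, ?_, ?_⟩
  · intro ℓ hℓ hℓN
    beta_reduce
    rw [dif_pos (⟨hℓ, hℓN⟩ : ℓ.Prime ∧ ¬ ℓ ∣ N)]
    exact ha₀ ⟨ℓ, hℓ, hℓN⟩
  · intro ℓ hℓ hℓN
    beta_reduce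
    rw [dif_pos (⟨hℓ, hℓN⟩ : ℓ.Prime ∧ ¬ ℓ ∣ N), dif_pos (⟨hℓ, hℓN⟩ : ℓ.Prime ∧ ¬ ℓ ∣ N)]
    exact hιc ⟨ℓ, hℓ, hℓN⟩
  · intro ℓ hℓ hℓN
    beta_reduce
    rw [dif_pos (⟨hℓ.out, hℓN⟩ : ℓ.Prime ∧ ¬ ℓ ∣ N)]
    exact hψ'eig ⟨ℓ, hℓ.out, hℓN⟩

/-! ### Step B : the eigenvector in `κ ⊗ J[p]` -/

/-- (THETA + LIFT) a nonzero eigenvector of the Hecke operators in `κ ⊗ J₀(N)(ℚ̄)[p]`. -/
theorem gasm_eigenvector (N : ℕ) [NeZero N] (p : ℕ) [Fact p.Prime] {κ : Type} [Field κ]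
    [Finite κ] [Algebra (ZMod p) κ] (c : ℕ → κ) (ψ' : s16lbAb N →+ κ) (hψ'0 : ψ' ≠ 0)
    (hPE : GasmPE ψ')
    (heig : ∀ (ℓ : ℕ) [Fact ℓ.Prime] (hℓN : ¬ ℓ ∣ N), ψ'.comp (gasmTr N ℓ hℓN) = c ℓ • ψ') :
    ∃ x : κ ⊗[ZMod p] gasmJp N p, x ≠ 0 ∧
      ∀ (ℓ : ℕ) (hℓ : ℓ.Prime), ¬ ℓ ∣ N → ℓ ≠ p →
        (gasmTp N p ⟨ℓ, hℓ⟩).baseChange κ x = c ℓ • x := by
  obtain ⟨Θ, hΘinj, hΘeq⟩ := gasm_theta N p
  have hmem : ∀ χ : gasmPEHoms N (ZMod p), Θ χ ∈ gasmJp N p := by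
    intro χ
    rw [Pic0.mem_torsion, ← map_zsmul]
    have h0 : ((p : ℤ) • χ : gasmPEHoms N (ZMod p)) = 0 := by
      apply Subtype.ext
      apply AddMonoidHom.ext
      intro h
      rw [AddSubgroup.coe_zsmul, AddMonoidHom.smul_apply, AddSubgroup.coe_zero,
        AddMonoidHom.zero_apply, zsmul_eq_mul]
      have : ((p : ℤ) : ZMod p) = 0 := by
        rw [Int.cast_natCast]; exact ZMod.natCast_self p
      rw [this, zero_mul]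
    rw [h0, map_zero]
  let Θ' : gasmPEHoms N (ZMod p) →+ gasmJp N p := Θ.codRestrict (gasmJp N p) hmem
  have hΘ'inj : Function.Injective Θ' := fun χ χ' h =>
    hΘinj (congrArg Subtype.val h)
  have hcomp : ∀ lam : κ →ₗ[ZMod p] ZMod p,
      lam.toAddMonoidHom.comp ψ' ∈ gasmPEHoms N (ZMod p) := by
    intro lam γ hγ
    rw [AddMonoidHom.comp_apply, hPE γ hγ, map_zero]
  obtain ⟨x, hx0, hx⟩ := gasm_lift (p := p) (κ := κ) (gasmPEHoms N (ZMod p))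
    (J' := gasmJp N p) Θ' hΘ'inj ψ' hψ'0 hcomp
  refine ⟨x, hx0, fun ℓ hℓ hℓN hℓp => ?_⟩
  haveI : Fact ℓ.Prime := ⟨hℓ⟩
  refine hx (gasmTr N ℓ hℓN) (gasmTp N p ⟨ℓ, hℓ⟩) (c ℓ) (fun χ χ' h => ?_) (heig ℓ hℓN)
  apply Subtype.ext
  rw [gasmTp_coe]
  exact hΘeq ℓ hℓN hℓp χ χ' h

/-! ### Step C : the Galois module `W` and the final assembly -/

section Assembly

variable (N : ℕ) [NeZero N] (p : ℕ) [Fact p.Prime] (κ : Type) [Field κ] [Algebra (ZMod p) κ]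

/-- `T_ℓ` commutes with Galois on `κ ⊗ J[p]`. -/
theorem gasm_hecke_galois_tensor (ℓ : Nat.Primes) (σ : GQ) (y : κ ⊗[ZMod p] gasmJp N p) :
    (gasmTp N p ℓ).baseChange κ (gasmRhoM N p κ σ y) =
      gasmRhoM N p κ σ ((gasmTp N p ℓ).baseChange κ y) := by
  induction y using TensorProduct.induction_on with
  | zero => simp only [map_zero]
  | tmul c P =>
    rw [gasmRhoM_tmul, LinearMap.baseChange_tmul, LinearMap.baseChange_tmul, gasmRhoM_tmul]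
    congr 1
    apply Subtype.ext
    rw [gasmTp_coe, JZero.coe_torsionGaloisRep_apply, JZero.coe_torsionGaloisRep_apply, gasmTp_coe]
    exact (gasm_hecke_galois N ℓ σ (P : JZero N)).symm
  | add y z hy hz => simp only [map_add, hy, hz]

/-- inertia at `ℓ ∤ N p` acts trivially on `κ ⊗ J[p]`. -/
theorem gasm_inertia_tensor (ℓ : ℕ) (hℓ : ℓ.Prime) (hℓNp : ¬ ℓ ∣ N * p)
    (A : ValuationSubring Qb) (hA : A.LiesOverPrime ℓ) (σ : GQ) (hσ : σ ∈ A.inertiaSubgroupIn ℚ) :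
    gasmRhoM N p κ σ = 1 := by
  have h1 : JZero.torsionGaloisRep N p σ = 1 := by
    refine LinearMap.ext fun P => Subtype.ext ?_
    rw [JZero.coe_torsionGaloisRep_apply, Module.End.one_apply]
    refine (gasm_es N p ℓ hℓ hℓNp A hA).1 σ hσ (P : JZero N) ⟨1, ?_⟩
    rw [pow_one, ← Nat.cast_smul_eq_nsmul ℤ]
    exact Pic0.mem_torsion.mp P.2
  rw [gasmRhoM_apply, h1, LinearMap.baseChange_one]

/-- the Eichler–Shimura relation on `κ ⊗ J[p]`. -/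
theorem gasm_frob_tensor (ℓ : ℕ) (hℓ : ℓ.Prime) (hℓNp : ¬ ℓ ∣ N * p)
    (A : ValuationSubring Qb) (hA : A.LiesOverPrime ℓ) (σ : GQ) (hσ : A.IsFrobeniusAt σ ℓ)
    (y : κ ⊗[ZMod p] gasmJp N p) :
    gasmRhoM N p κ σ (gasmRhoM N p κ σ y) -
      (gasmTp N p ⟨ℓ, hℓ⟩).baseChange κ (gasmRhoM N p κ σ y) + (ℓ : κ) • y = 0 := by
  rw [Nat.cast_smul_eq_nsmul κ ℓ y]
  induction y using TensorProduct.induction_on with
  | zero => simp only [map_zero, smul_zero, sub_zero, add_zero]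
  | tmul c P =>
    rw [gasmRhoM_tmul, gasmRhoM_tmul, LinearMap.baseChange_tmul]
    have key : JZero.torsionGaloisRep N p σ (JZero.torsionGaloisRep N p σ P) -
        gasmTp N p ⟨ℓ, hℓ⟩ (JZero.torsionGaloisRep N p σ P) + ℓ • P = 0 := by
      apply Subtype.ext
      rw [AddSubgroup.coe_add, AddSubgroup.coe_sub, AddSubgroup.coe_nsmul, gasmTp_coe,
        JZero.coe_torsionGaloisRep_apply, JZero.coe_torsionGaloisRep_apply, AddSubgroup.coe_zero]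
      refine (gasm_es N p ℓ hℓ hℓNp A hA).2 σ hσ (P : JZero N) ⟨1, ?_⟩
      rw [pow_one, ← Nat.cast_smul_eq_nsmul ℤ]
      exact Pic0.mem_torsion.mp P.2
    have h2 := congrArg (TensorProduct.mk (ZMod p) κ (gasmJp N p) c) key
    rw [map_add, map_sub, map_nsmul, map_zero] at h2
    exact h2
  | add y z hy hz =>
    have : gasmRhoM N p κ σ (gasmRhoM N p κ σ (y + z)) -
        (gasmTp N p ⟨ℓ, hℓ⟩).baseChange κ (gasmRhoM N p κ σ (y + z)) + ℓ • (y + z) =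
        (gasmRhoM N p κ σ (gasmRhoM N p κ σ y) -
          (gasmTp N p ⟨ℓ, hℓ⟩).baseChange κ (gasmRhoM N p κ σ y) + ℓ • y) +
        (gasmRhoM N p κ σ (gasmRhoM N p κ σ z) -
          (gasmTp N p ⟨ℓ, hℓ⟩).baseChange κ (gasmRhoM N p κ σ z) + ℓ • z) := by
      simp only [map_add, smul_add]
      abel
    rw [this, hy, hz, add_zero]

end Assembly

/-- **S29 for `N ≠ 0`.** -/
theorem gasm_S29_pos (N : ℕ) [NeZero N] (g : CuspForm (Gamma0 N) 2)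
    (hg : g.IsNormalizedEigenform) {p : ℕ} (hp : p.Prime) {k : Type} [Field k] [CharP k p]
    (φ : integralClosure ℤ ℂ →+* k) :
    ∃ ρ : ResidualGaloisRep k, ρ.IsAttachedTo g φ ∧
      ∀ ℓ : ℕ, ℓ.Prime → ¬ ℓ ∣ N * p → ρ.IsUnramifiedAt ℓ := by
  haveI : Fact p.Prime := ⟨hp⟩
  obtain ⟨κ, iF, iFin, iAlg, ι, a, c, ψ', hψ'0, hPE, ha, hιc, heig⟩ :=
    gasm_eigen_finite N g hg (p := p) φ
  obtain ⟨x, hx0, hxeig⟩ := gasm_eigenvector N p c ψ' hψ'0 hPE heig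
  haveI : CharP κ p := by
    haveI : CharP (ZMod p) p := ZMod.charP p
    exact charP_of_injective_algebraMap (algebraMap (ZMod p) κ).injective p
  set ρM := gasmRhoM N p κ with hρM
  haveI : Nontrivial (gasmSpan ρM x) := gasm_span_nontrivial ρM x hx0
  haveI : Module.Finite κ (gasmSpan ρM x) :=
    gasm_span_finite ρM x (gasm_orbit_finite N p κ x)
  have hlevel : GaloisFactorsThroughFiniteLevel (gasmSpanRep ρM x) := by
    obtain ⟨E, hE1, hE2, hE3⟩ := gasm_exists_level N p κ x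
    refine ⟨E, hE1, fun σ hσ => gasmSpanRep_eq_one ρM x σ (fun g => ?_)⟩
    have hσ' : σ ∈ E.fixingSubgroup :=
      (IntermediateField.mem_fixingSubgroup_iff E σ).mpr hσ
    have h1 := hE3 _ (gasm_conj_mem_fixingSubgroup E hE2 g σ hσ')
    have h2 : σ * g = g * (g⁻¹ * σ * g) := by group
    rw [← Module.End.mul_apply, ← map_mul, h2, map_mul, Module.End.mul_apply, h1]
  have hunr : ∀ ℓ : ℕ, ℓ.Prime → ¬ ℓ ∣ N * p → ∀ A : ValuationSubring Qb, A.LiesOverPrime ℓ →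
      ∀ σ ∈ A.inertiaSubgroupIn ℚ, gasmSpanRep ρM x σ = 1 := by
    intro ℓ hℓ hℓNp A hA σ hσ
    refine gasmSpanRep_eq_one ρM x σ (fun g => ?_)
    rw [hρM, gasm_inertia_tensor N p κ ℓ hℓ hℓNp A hA σ hσ, Module.End.one_apply]
  have hfrob : ∀ ℓ : ℕ, ℓ.Prime → ¬ ℓ ∣ N * p → ∀ A : ValuationSubring Qb, A.LiesOverPrime ℓ →
      ∀ σ : GQ, A.IsFrobeniusAt σ ℓ →
        (gasmSpanRep ρM x σ * gasmSpanRep ρM x σ - c ℓ • gasmSpanRep ρM x σ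
          + (ℓ : κ) • (1 : Module.End κ (gasmSpan ρM x)) : Module.End κ (gasmSpan ρM x)) = 0 := by
    intro ℓ hℓ hℓNp A hA σ hσ
    have hℓN : ¬ ℓ ∣ N := fun h => hℓNp (h.mul_right p)
    have hℓp : ℓ ≠ p := fun h => hℓNp (h ▸ dvd_mul_left _ _)
    refine gasmSpanRep_quadratic ρM x ((gasmTp N p ⟨ℓ, hℓ⟩).baseChange κ) (c ℓ) (ℓ : κ)
      (gasm_span_eigen ρM x _ (c ℓ) (fun g y => gasm_hecke_galois_tensor N p κ ⟨ℓ, hℓ⟩ g y)
        (hxeig ℓ hℓ hℓN hℓp)) σ (fun y => gasm_frob_tensor N p κ ℓ hℓ hℓNp A hA σ hσ y)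
  obtain ⟨R, hR1, hR2, -⟩ := gar_main p N (gasmSpanRep ρM x) hlevel c hunr hfrob ι
  refine ⟨R, ?_, hR2⟩
  intro ℓ hℓ hℓN hℓk A hA σ hσ
  have hℓp : ℓ ≠ p := by
    rintro rfl
    exact hℓk (CharP.cast_eq_zero k ℓ)
  have hℓNp : ¬ ℓ ∣ N * p := by
    intro h
    rcases (Nat.Prime.dvd_mul hℓ).mp h with h | h
    · exact hℓN h
    · exact hℓp ((Nat.prime_dvd_prime_iff_eq hℓ hp).mp h)
  refine ⟨a ℓ, ha ℓ hℓ hℓN, ?_⟩
  rw [hR1 ℓ hℓ hℓNp A hA σ hσ, hιc ℓ hℓ hℓN]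

/-- **S29**, all levels (`N = 0`: every condition is vacuous). -/
theorem gasm_S29 {N : ℕ} {g : CuspForm (Gamma0 N) 2} (hg : g.IsNormalizedEigenform)
    {p : ℕ} (hp : p.Prime) {k : Type} [Field k] [CharP k p]
    (φ : integralClosure ℤ ℂ →+* k) :
    ∃ ρ : ResidualGaloisRep k, ρ.IsAttachedTo g φ ∧
      ∀ ℓ : ℕ, ℓ.Prime → ¬ ℓ ∣ N * p → ρ.IsUnramifiedAt ℓ := by
  by_cases hN : N = 0
  · subst hN
    haveI : Fact p.Prime := ⟨hp⟩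
    haveI : CharP (ZMod p) p := ZMod.charP p
    obtain ⟨R, -, -, -⟩ := gar_main (κ := ZMod p) p 0 (W := ZMod p)
      (1 : GQ →* Module.End (ZMod p) (ZMod p)) ⟨⊥, inferInstance, fun σ _ => rfl⟩
      (fun _ => 0)
      (fun ℓ _ h => absurd (by rw [zero_mul]; exact dvd_zero ℓ) h)
      (fun ℓ _ h => absurd (by rw [zero_mul]; exact dvd_zero ℓ) h)
      (ZMod.castHom (dvd_refl p) k)
    refine ⟨R, fun ℓ _ h => absurd (dvd_zero ℓ) h,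
      fun ℓ _ h => absurd (by rw [zero_mul]; exact dvd_zero ℓ) h⟩
  · haveI : NeZero N := ⟨hN⟩
    exact gasm_S29_pos N g hg hp φ

end Fermat.Agent.G
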