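import Mathlib
import Fermat.Prelude.Def_FreyPackage_EigenformResidualAttachment
import Fermat.Agent.G.Asm.Main29
import Fermat.Agent.S13.TorsionField
import Fermat.Agent.S13.FreyTorsion

/-!
# Program G, package Asm : assembly of S42

`gasm_S42` : the family of residual attachments `EigenformResidualAttachmentAt` for a Frey package,
from S29 with `k = ℤ̄ / 𝔪`; the number field `F` is a finite Galois extension containing a level of
the residual representation and the field of definition of the `p`-torsion of the Frey curve.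
-/

set_option autoImplicit false
set_option linter.unusedSectionVars false
set_option linter.unusedVariables false
set_option linter.style.haveILetI false

noncomputable section

namespace Fermat.Agent.G

open CongruenceSubgroup ModularCurve AlgebraicCurve Polynomial Fermat.Agent.S24
open WeierstrassCurve WeierstrassCurve.Affine.Point

local notation "Qb" => AlgebraicClosure ℚ
local notation "GQ" => (AlgebraicClosure ℚ ≃ₐ[ℚ] AlgebraicClosure ℚ)

/-- the trace read off from a characteristic polynomial in dimension two. -/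
theorem gasm_trace_of_charpoly {k : Type} [Field k] {V : Type} [AddCommGroup V] [Module k V]
    [Module.Finite k V] (hV : Module.finrank k V = 2) (f : Module.End k V) (t d : k)
    (h : LinearMap.charpoly f = X ^ 2 - C t * X + C d) : LinearMap.trace k V f = t := by
  classical
  let b := Module.finBasisOfFinrankEq k V hV
  rw [LinearMap.trace_eq_matrix_trace k b f, Matrix.trace_eq_neg_charpoly_coeff,
    LinearMap.charpoly_toMatrix, h]
  simp [Fintype.card_fin, coeff_C]

/-- **S42.** -/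
theorem gasm_S42 (P : FreyPackage) : ∀ M : ℕ, 0 < M → P.EigenformResidualAttachmentAt M := by
  intro M hM g hg 𝔪 h𝔪 hp𝔪
  haveI := h𝔪
  haveI : Fact P.p.Prime := ⟨P.pp⟩
  letI : Field (integralClosure ℤ ℂ ⧸ 𝔪) := Ideal.Quotient.field 𝔪
  haveI : CharP (integralClosure ℤ ℂ ⧸ 𝔪) P.p := by
    refine (CharP.charP_iff_prime_eq_zero P.pp).mpr ?_
    rw [← map_natCast (Ideal.Quotient.mk 𝔪)]
    exact Ideal.Quotient.eq_zero_iff_mem.mpr hp𝔪
  letI : Algebra (ZMod P.p) (integralClosure ℤ ℂ ⧸ 𝔪) := ZMod.algebra _ P.p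
  obtain ⟨ρ, hatt, hunr⟩ := gasm_S29 hg P.pp (Ideal.Quotient.mk 𝔪)
  obtain ⟨L, hLfd, hL⟩ := ρ.factorsThroughFiniteLevel
  haveI := Fermat.Agent.S13.frey_torsion_finite P
  obtain ⟨F1, hF1fd, hF1⟩ := Fermat.Agent.S13.exists_finite_fixing_torsion P.freyCurve P.p
  haveI := hLfd
  haveI := hF1fd
  obtain ⟨E, hE1, hE2, hE3⟩ := gopq_exists_galois_ge (L ⊔ F1)
  haveI := hE2
  haveI := hE3
  have hℓK : ∀ ℓ : ℕ, ℓ.Prime → ℓ ≠ P.p → ((ℓ : ℕ) : integralClosure ℤ ℂ ⧸ 𝔪) ≠ 0 := by
    intro ℓ hℓ hℓp h0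
    have := (CharP.cast_eq_zero_iff (integralClosure ℤ ℂ ⧸ 𝔪) P.p ℓ).mp h0
    exact hℓp ((Nat.prime_dvd_prime_iff_eq P.pp hℓ).mp this).symm
  refine ⟨integralClosure ℤ ℂ ⧸ 𝔪, inferInstance, inferInstance, ρ.V, inferInstance, inferInstance,
    ρ.ρ, Ideal.Quotient.mk 𝔪, E, inferInstance, ?_, hE3, inferInstance, inferInstance,
    ?_, ρ.finrank_eq, ?_, ?_, ?_⟩
  · exact { to_charZero := inferInstance, to_finiteDimensional := hE2 }
  · rw [Ideal.mk_ker]
  · intro σ hσ
    rw [MonoidHom.mem_ker] at hσ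
    have hfix : ∀ y ∈ E, σ y = y := by
      intro y hy
      have h1 := AlgEquiv.restrictNormal_commutes σ E ⟨y, hy⟩
      rw [show σ.restrictNormal E = 1 from hσ] at h1
      exact h1.symm
    refine Subgroup.mem_inf.mpr ⟨?_, ?_⟩
    · rw [MonoidHom.mem_ker]
      refine LinearMap.ext fun x => ?_
      rw [galoisRepModuleEnd_apply, Module.End.one_apply]
      refine hF1 σ ?_ x
      rw [IntermediateField.mem_fixingSubgroup_iff]
      exact fun y hy => hfix y (hE1 ((le_sup_right : F1 ≤ L ⊔ F1) hy))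
    · rw [MonoidHom.mem_ker]
      exact hL σ (fun y hy => hfix y (hE1 ((le_sup_left : L ≤ L ⊔ F1) hy)))
  · intro ℓ hℓ hℓM hℓp A hA τ hτ
    obtain ⟨a, ha, hchar⟩ := hatt ℓ hℓ hℓM (hℓK ℓ hℓ hℓp) A hA τ hτ
    exact ⟨a, ha, gasm_trace_of_charpoly ρ.finrank_eq (ρ.ρ τ) _ _ hchar⟩
  · intro ℓ hℓ hℓM hℓp A hA τ hτ
    obtain ⟨a, ha, hchar⟩ := hatt ℓ hℓ hℓM (hℓK ℓ hℓ hℓp) A hA τ hτ
    exact gar_det_of_charpoly ρ.finrank_eq (ρ.ρ τ) _ _ hchar

end Fermat.Agent.G
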